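/-
TEAM TW56 -> S56, block FLAT, sub-block [RAM] (architect helper31):  `(P_m) ⟹` Kummer bound.
File 1: abstract definitions (Mathlib only).

`Ω` = an ultrametric normed field (`ℚ̄_p`).  All elements live in `Ω`; subfields are `Subfield Ω`,
coefficient rings are `Subring Ω`, polynomials are `S[X]` (`S : Subring Ω`) evaluated with `aeval`.
A finite Galois group `I` of `M/M₀` is presented by ring endomorphisms `a s : Ω →+* Ω` which are
multiplicative in `s` ONLY ON `M` (`GAct`); no subtypes of fields.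
-/
import Mathlib

set_option autoImplicit false

noncomputable section

namespace Fermat.Agent.TW56.Ram

open Polynomial

variable {Ω : Type} [NormedField Ω]

/-- a group `I` acting faithfully and isometrically on the subfield `M` through ring endomorphisms of
`Ω` (multiplicativity only on `M`). -/
structure GAct (M : Subfield Ω) (I : Type) [Group I] (a : I → Ω →+* Ω) : Prop where
  maps : ∀ s, ∀ x ∈ M, a s x ∈ M
  mul : ∀ s t, ∀ x ∈ M, a (s * t) x = a s (a t x)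
  one : ∀ x ∈ M, a 1 x = x
  isom : ∀ s x, ‖a s x‖ = ‖x‖
  faithful : ∀ s, (∀ x ∈ M, a s x = x) → s = 1

/-- the elements of `M` fixed by the subgroup `J` (a field, used as a coefficient ring). -/
def fixR (M : Subfield Ω) {I : Type} [Group I] (a : I → Ω →+* Ω) (J : Subgroup I) : Subring Ω where
  carrier := {x | x ∈ M ∧ ∀ s ∈ J, a s x = x}
  mul_mem' := fun {x y} hx hy =>
    ⟨M.mul_mem hx.1 hy.1, fun s hs => by rw [map_mul, hx.2 s hs, hy.2 s hs]⟩
  one_mem' := ⟨M.one_mem, fun s _ => map_one _⟩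
  add_mem' := fun {x y} hx hy =>
    ⟨M.add_mem hx.1 hy.1, fun s hs => by rw [map_add, hx.2 s hs, hy.2 s hs]⟩
  zero_mem' := ⟨M.zero_mem, fun s _ => map_zero _⟩
  neg_mem' := fun {x} hx => ⟨M.neg_mem hx.1, fun s hs => by rw [map_neg, hx.2 s hs]⟩

theorem mem_fixR {M : Subfield Ω} {I : Type} [Group I] {a : I → Ω →+* Ω} {J : Subgroup I} {x : Ω} :
    x ∈ fixR M a J ↔ x ∈ M ∧ ∀ s ∈ J, a s x = x := Iff.rfl

/-- the integers of a subfield. -/
def intR [IsUltrametricDist Ω] (F : Subfield Ω) : Subring Ω where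
  carrier := {x | x ∈ F ∧ ‖x‖ ≤ 1}
  mul_mem' := fun {x y} hx hy => ⟨F.mul_mem hx.1 hy.1, by
    rw [norm_mul]; exact mul_le_one₀ hx.2 (norm_nonneg _) hy.2⟩
  one_mem' := ⟨F.one_mem, by simp⟩
  add_mem' := fun {x y} hx hy => ⟨F.add_mem hx.1 hy.1,
    (IsUltrametricDist.norm_add_le_max x y).trans (max_le hx.2 hy.2)⟩
  zero_mem' := ⟨F.zero_mem, by simp⟩
  neg_mem' := fun {x} hx => ⟨F.neg_mem hx.1, by rw [norm_neg]; exact hx.2⟩

theorem mem_intR [IsUltrametricDist Ω] {F : Subfield Ω} {x : Ω} :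
    x ∈ intR F ↔ x ∈ F ∧ ‖x‖ ≤ 1 := Iff.rfl

/-- `R0` = integers of an "unramified" subfield whose uniformiser has norm `θ ^ e`
(`θ` = norm of a uniformiser of the big field). -/
structure Base (R0 : Subring Ω) (θ : ℝ) (e : ℕ) : Prop where
  he : 0 < e
  θ0 : 0 < θ
  θ1 : θ < 1
  int : ∀ r ∈ R0, ‖r‖ ≤ 1
  val : ∀ r ∈ R0, r ≠ 0 → ∃ n : ℕ, ‖r‖ = θ ^ (e * n)

/-- Eisenstein polynomials of degree `e` over `R0`. -/
def IsEis (R0 : Subring Ω) (θ : ℝ) (e : ℕ) (Q : R0[X]) : Prop :=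
  Q.Monic ∧ Q.natDegree = e ∧ (∀ i < e, ‖(Q.coeff i : Ω)‖ < 1) ∧ ‖(Q.coeff 0 : Ω)‖ = θ ^ e

/-- `R0[β]` is dense in the integers of `M`. -/
def Approx (R0 : Subring Ω) (M : Subfield Ω) (β : Ω) : Prop :=
  ∀ x ∈ M, ‖x‖ ≤ 1 → ∀ c : ℝ, 0 < c → ∃ f : R0[X], ‖x - aeval β f‖ ≤ c

/-- the monomials `x y ^ i` (`x ∈ S \ 0`, `i < n`) have pairwise distinct norms for distinct `i`. -/
def DH (S : Subring Ω) (y : Ω) (n : ℕ) : Prop :=
  ∀ x ∈ S, ∀ x' ∈ S, x ≠ 0 → x' ≠ 0 → ∀ i k : ℕ, i < k → k < n →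
    ‖x‖ * ‖y‖ ^ i ≠ ‖x'‖ * ‖y‖ ^ k

/-- the elements of `J` fixing `α`. -/
def stabF {I : Type} [Group I] [Fintype I] (a : I → Ω →+* Ω) (J : Subgroup I) (α : Ω) : Finset I :=
  open Classical in Finset.univ.filter fun s => s ∈ J ∧ a s α = α

/-- the elements of `J` moving `α`. -/
def moveF {I : Type} [Group I] [Fintype I] (a : I → Ω →+* Ω) (J : Subgroup I) (α : Ω) : Finset I :=
  open Classical in Finset.univ.filter fun s => s ∈ J ∧ a s α ≠ α

theorem mem_stabF {I : Type} [Group I] [Fintype I] {a : I → Ω →+* Ω} {J : Subgroup I} {α : Ω}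
    {s : I} : s ∈ stabF a J α ↔ s ∈ J ∧ a s α = α := by
  simp [stabF]

theorem mem_moveF {I : Type} [Group I] [Fintype I] {a : I → Ω →+* Ω} {J : Subgroup I} {α : Ω}
    {s : I} : s ∈ moveF a J α ↔ s ∈ J ∧ a s α ≠ α := by
  simp [moveF]

/-- the subgroup of `I` fixing the subfield `K ≤ M` pointwise. -/
def fixG {M : Subfield Ω} {I : Type} [Group I] {a : I → Ω →+* Ω} (h : GAct M I a) (K : Subfield Ω)
    (hK : K ≤ M) : Subgroup I where
  carrier := {s | ∀ z ∈ K, a s z = z}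
  mul_mem' := fun {s t} hs ht z hz => by rw [h.mul s t z (hK hz), ht z hz, hs z hz]
  one_mem' := fun z hz => h.one z (hK hz)
  inv_mem' := fun {s} hs z hz => by
    have h1 := h.mul s⁻¹ s z (hK hz)
    rw [inv_mul_cancel, h.one z (hK hz), hs z hz] at h1
    exact h1.symm

theorem mem_fixG {M : Subfield Ω} {I : Type} [Group I] {a : I → Ω →+* Ω} (h : GAct M I a)
    (K : Subfield Ω) (hK : K ≤ M) {s : I} : s ∈ fixG h K hK ↔ ∀ z ∈ K, a s z = z := Iff.rfl

end Fermat.Agent.TW56.Ram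

end
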