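/-
TEAM TW56 -> S56, block FLAT, sub-block [RAM] (architect helper31).  File 2: ABSTRACT statements
(Mathlib only).  Each package proves `theorem xxx (h : Stmt_a) ... : Stmt_b` in its own file
`Fermat/Agent/TW56/Ram/<Name>.lean`.

THE PROOF.  `M/ℚ_p` finite Galois with `(P_m)`, `M₀` = maximal unramified subfield, `R0 = O_{M₀}`,
`Π` = uniformiser of `M`, `θ = ‖Π‖`, `θ ^ e = ‖p‖`, `I = Gal(M/M₀)`, `#I = e`,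
`P0 = ∏_{s ∈ I} (X - sΠ)` (Eisenstein), `D = ‖P0'(Π)‖ = ∏_{s ≠ 1} ‖Π - sΠ‖`.
* Theorem D (`Stmt_DCore` + Twin + DiffInv):  `‖p‖ ^ p ≤ (D θ) ^ (p-1)`.
  [Write `D = ‖i₀ c_{i₀}‖ θ^(i₀-1)` (unique maximal term of `P0'(Π)`).  If the inequality fails, put
  `Q = P0 - c_{i₀} X^{i₀}` (if `p ∤ i₀`) or `Q = P0 - i₀ c_{i₀} X^(i₀-1)` (if `p ∣ i₀`): Eisenstein, `β` a
  root, `‖P0(β)‖ = Dθ` resp. `D`, small enough for `(P_m)`: `Π ↦ β` is an approximate ring hom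
  `O_M → O_{M₀(β)}`, so `M ≤ M₀(β)`, `β ∈ M` by degrees, so `‖Q'(β)‖ = D` (the different does not depend
  on the uniformiser); but `‖Q'(β)‖ < D` resp. `= D/θ`.]
* Theorem U (`Stmt_U`):  `K ≤ M`, `J = I ∩ Gal(M/K)`, `α ∈ M`, `α^p ∈ K`, `y = α - ε` (`ε = 0, 1`) with
  `‖y‖ ∉ ‖Kˣ‖`:  `D ≤ θ^(e-1) κ^(p-1)`, `κ = ‖ζ-1‖ ‖α‖ / ‖y‖`.
  [`H = Stab_J(α)`; `c ∈ M^H` is `g(y)`, `g ∈ M^J[X]`, `deg g < p`, `‖c‖ = max ‖g_i‖ ‖y‖^i`, so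
  `‖σc - c‖ ≤ κ ‖c‖` for `σ ∈ J`; apply this to the coefficients of `∏_{h ∈ H} (X - hΠ)`:
  `∏_{h ∈ H} ‖Π - σhΠ‖ ≤ κ θ^#H` for `σ ∈ J \ H`; `#(J \ H) ≥ (p-1) #H`.]
* D + U:  `‖p‖ ≤ κ ^ ((p-1)²)`.  `ε = 0`: impossible (`p ≥ 3`).  `ε = 1`: `‖α^p - 1‖ = ‖y‖^p` is small.
* `Stmt_Reduce`: modulo `p`-th powers of `K` every `a ∈ Kˣ` is either close to `1` or of one of these
  two types.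
-/
import Fermat.Agent.TW56.Ram.Defs

set_option autoImplicit false

noncomputable section

namespace Fermat.Agent.TW56.Ram

open Polynomial

/-! ### A. ultrametric lemmas -/

/-- RAM-MAX1. -/
def Stmt_Max : Prop :=
  ∀ (Ω : Type) [NormedField Ω] [IsUltrametricDist Ω] (n : ℕ) (f : Fin n → Ω),
    (∀ i j, i ≠ j → f i ≠ 0 → ‖f i‖ ≠ ‖f j‖) → ∀ i, ‖f i‖ ≤ ‖∑ j, f j‖

/-- RAM-MAX2. -/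
def Stmt_PolyMax : Prop :=
  ∀ (Ω : Type) [NormedField Ω] [IsUltrametricDist Ω] (S : Subring Ω) (y : Ω) (n : ℕ), DH S y n →
    ∀ g : S[X], g.natDegree < n →
      (∀ i, ‖(g.coeff i : Ω)‖ * ‖y‖ ^ i ≤ ‖aeval y g‖) ∧
      ∃ i < n, ‖aeval y g‖ = ‖(g.coeff i : Ω)‖ * ‖y‖ ^ i

/-- RAM-BDH. -/
def Stmt_BaseDH : Prop :=
  ∀ (Ω : Type) [NormedField Ω] (R0 : Subring Ω) (θ : ℝ) (e : ℕ) (β : Ω), Base R0 θ e → ‖β‖ = θ →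
    DH R0 β e

/-- RAM-EIS : the roots of an Eisenstein polynomial have norm `θ`. -/
def Stmt_EisRoot : Prop :=
  ∀ (Ω : Type) [NormedField Ω] [IsUltrametricDist Ω] (R0 : Subring Ω) (θ : ℝ) (e : ℕ) (Q : R0[X])
    (β : Ω), Base R0 θ e → IsEis R0 θ e Q → aeval β Q = 0 → ‖β‖ = θ

/-- RAM-COEF : coefficients of `∏ (X - r)`, `‖r‖ ≤ θ`. -/
def Stmt_CoefBd : Prop :=
  ∀ (Ω : Type) [NormedField Ω] [IsUltrametricDist Ω] (ι : Type) (T : Finset ι) (r : ι → Ω) (θ : ℝ),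
    0 ≤ θ → (∀ t ∈ T, ‖r t‖ ≤ θ) → ∀ i ≤ T.card, ‖(∏ t ∈ T, (X - C (r t))).coeff i‖ ≤ θ ^ (T.card - i)

/-- RAM-ZETA. -/
def Stmt_Zeta : Prop :=
  ∀ (Ω : Type) [NormedField Ω] [IsUltrametricDist Ω] (p : ℕ) (ζ : Ω), p.Prime → ζ ^ p = 1 → ζ ≠ 1 →
    ‖ζ - 1‖ ^ (p - 1) = ‖(p : Ω)‖ ∧ ∀ k : ℕ, ‖ζ ^ k - 1‖ ≤ ‖ζ - 1‖

/-! ### B. Theorem D -/

/-- **RAM-DCORE**. -/
def Stmt_DCore : Prop :=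
  ∀ (Ω : Type) [NormedField Ω] [IsUltrametricDist Ω] [IsAlgClosed Ω] [CharZero Ω] (p : ℕ), p.Prime →
    ∀ (R0 : Subring Ω) (θ : ℝ) (e : ℕ) (Pi : Ω) (P0 : R0[X]), Base R0 θ e → ‖(p : Ω)‖ = θ ^ e →
    ‖Pi‖ = θ → IsEis R0 θ e P0 → aeval Pi P0 = 0 →
    (∀ (Q : R0[X]) (β : Ω), IsEis R0 θ e Q → aeval β Q = 0 →
      ‖aeval β P0‖ ^ (p - 1) < ‖(p : Ω)‖ ^ p →
      ‖aeval β (derivative Q)‖ = ‖aeval Pi (derivative P0)‖) →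
    ‖(p : Ω)‖ ^ p ≤ (‖aeval Pi (derivative P0)‖ * θ) ^ (p - 1)

/-- RAM-TWEVAL. -/
def Stmt_TwinEval : Prop :=
  ∀ (Ω : Type) [NormedField Ω] [IsUltrametricDist Ω] (R0 : Subring Ω) (θ : ℝ) (e : ℕ) (Pi β : Ω)
    (P0 : R0[X]), Base R0 θ e → ‖Pi‖ = θ → ‖β‖ = θ → P0.Monic → P0.natDegree = e →
    aeval Pi P0 = 0 → ∀ g : R0[X], ‖aeval β g‖ ≤ max ‖aeval Pi g‖ ‖aeval β P0‖

/-- RAM-APPROX. -/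
def Stmt_Approx : Prop :=
  ∀ (Ω : Type) [NormedField Ω] [IsUltrametricDist Ω] (M : Subfield Ω) (R0 : Subring Ω) (θ : ℝ)
    (β : Ω), 0 < θ → θ < 1 → (∀ x ∈ M, ‖x‖ < 1 → ‖x‖ ≤ θ) →
    (∀ x ∈ M, ‖x‖ ≤ 1 → ∃ c ∈ R0, ‖x - c‖ < 1) → (∀ r ∈ R0, r ∈ M) → β ∈ M → ‖β‖ = θ →
    Approx R0 M β

/-- RAM-MVU : `‖s x - x‖ ≤ ‖s Π - Π‖` on the integers of `M`. -/
def Stmt_MoveUnif : Prop :=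
  ∀ (Ω : Type) [NormedField Ω] [IsUltrametricDist Ω] (M : Subfield Ω) (I : Type) [Group I]
    (a : I → Ω →+* Ω), GAct M I a → ∀ (R0 : Subring Ω) (Pi : Ω), (∀ r ∈ R0, ‖r‖ ≤ 1) →
    (∀ r ∈ R0, ∀ s, a s r = r) → ‖Pi‖ ≤ 1 → Approx R0 M Pi →
    ∀ s, ∀ x ∈ M, ‖x‖ ≤ 1 → ‖a s x - x‖ ≤ ‖a s Pi - Pi‖

/-- RAM-DERPROD : `‖P0'(Π)‖ = ∏_{s ≠ 1} ‖Π - sΠ‖`. -/
def Stmt_DerProd : Prop :=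
  ∀ (Ω : Type) [NormedField Ω] [IsUltrametricDist Ω] (M : Subfield Ω) (I : Type) [Group I]
    [Fintype I] [DecidableEq I] (a : I → Ω →+* Ω), GAct M I a → ∀ (R0 : Subring Ω) (Pi : Ω)
    (P0 : R0[X]), (∀ r ∈ R0, ‖r‖ ≤ 1) → (∀ r ∈ R0, ∀ s, a s r = r) → Pi ∈ M → ‖Pi‖ ≤ 1 →
    Approx R0 M Pi → P0.Monic → P0.natDegree = Fintype.card I → aeval Pi P0 = 0 →
    ‖aeval Pi (derivative P0)‖ = ∏ s ∈ Finset.univ.erase (1 : I), ‖Pi - a s Pi‖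

/-- RAM-DIFFINV : the different does not depend on the uniformiser. -/
def Stmt_DiffInv : Prop :=
  ∀ (Ω : Type) [NormedField Ω] [IsUltrametricDist Ω] (M : Subfield Ω) (I : Type) [Group I]
    [Fintype I] (a : I → Ω →+* Ω), GAct M I a → ∀ (R0 : Subring Ω) (Pi β : Ω)
    (P0 Q : R0[X]), (∀ r ∈ R0, ‖r‖ ≤ 1) → (∀ r ∈ R0, ∀ s, a s r = r) → Pi ∈ M → ‖Pi‖ ≤ 1 →
    Approx R0 M Pi → P0.Monic → P0.natDegree = Fintype.card I → aeval Pi P0 = 0 →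
    β ∈ M → ‖β‖ ≤ 1 → Approx R0 M β → Q.Monic → Q.natDegree = Fintype.card I → aeval β Q = 0 →
    ‖aeval β (derivative Q)‖ = ‖aeval Pi (derivative P0)‖

/-- RAM-P0 : the Eisenstein polynomial `∏_s (X - sΠ)`. -/
def Stmt_P0 : Prop :=
  ∀ (Ω : Type) [NormedField Ω] [IsUltrametricDist Ω] (M : Subfield Ω) (I : Type) [Group I]
    [Fintype I] (a : I → Ω →+* Ω), GAct M I a → ∀ (R0 : Subring Ω) (Pi : Ω) (θ : ℝ),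
    (∀ x ∈ M, (∀ s, a s x = x) → ‖x‖ ≤ 1 → x ∈ R0) → Pi ∈ M → ‖Pi‖ = θ → θ < 1 →
    ∃ P0 : R0[X], IsEis R0 θ (Fintype.card I) P0 ∧ aeval Pi P0 = 0

/-! ### C. Theorem U -/

/-- RAM-FOURIER : `M^H = M^J(α)`, `H = Stab_J(α)`, in the coordinate `y = α - ε`. -/
def Stmt_Fourier : Prop :=
  ∀ (Ω : Type) [NormedField Ω] [CharZero Ω] (M : Subfield Ω) (I : Type) [Group I] [Fintype I]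
    (a : I → Ω →+* Ω), GAct M I a → ∀ (J : Subgroup I) (p : ℕ) (α ε : Ω), 0 < p → α ∈ M → α ≠ 0 →
    α ^ p ∈ fixR M a J → ε ∈ fixR M a J →
    ∀ c ∈ M, (∀ s ∈ J, a s α = α → a s c = c) →
      ∃ g : (fixR M a J)[X], g.natDegree < p ∧ aeval (α - ε) g = c

/-- RAM-MOVE. -/
def Stmt_Move : Prop :=
  ∀ (Ω : Type) [NormedField Ω] [IsUltrametricDist Ω] (S : Subring Ω) (y w : Ω) (g : S[X]), y ≠ 0 →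
    ‖w‖ ≤ ‖y‖ → (∀ i, ‖(g.coeff i : Ω)‖ * ‖y‖ ^ i ≤ ‖aeval y g‖) →
    ‖aeval (y + w) g - aeval y g‖ ≤ ‖w‖ / ‖y‖ * ‖aeval y g‖

/-- RAM-COSET : `∏_{h ∈ H} ‖Π - σhΠ‖ ≤ κ θ^#H`.  (`H` a finite subgroup given as a `Finset`.) -/
def Stmt_Coset : Prop :=
  ∀ (Ω : Type) [NormedField Ω] [IsUltrametricDist Ω] (M : Subfield Ω) (I : Type) [Group I]
    (a : I → Ω →+* Ω), GAct M I a → ∀ (H : Finset I) (σ : I) (Pi : Ω) (θ κ : ℝ), (1 : I) ∈ H →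
    (∀ h ∈ H, ∀ h' ∈ H, h * h' ∈ H) → (∀ h ∈ H, h⁻¹ ∈ H) → Pi ∈ M → ‖Pi‖ = θ → 0 ≤ κ →
    (∀ c ∈ M, (∀ h ∈ H, a h c = c) → ‖a σ c - c‖ ≤ κ * ‖c‖) →
    ∏ h ∈ H, ‖Pi - a (σ * h) Pi‖ ≤ κ * θ ^ H.card

/-- RAM-INDEX : `#(J \ H) ≥ (p-1) #H`. -/
def Stmt_Index : Prop :=
  ∀ (Ω : Type) [NormedField Ω] (M : Subfield Ω) (I : Type) [Group I] [Fintype I]
    (a : I → Ω →+* Ω), GAct M I a → ∀ (J : Subgroup I) (p : ℕ) (ζ α : Ω), p.Prime →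
    ζ ∈ fixR M a J → ζ ^ p = 1 → ζ ≠ 1 → α ∈ M → α ≠ 0 → α ^ p ∈ fixR M a J →
    (∃ σ ∈ J, a σ α ≠ α) → (p - 1) * (stabF a J α).card ≤ (moveF a J α).card

/-- RAM-COUNT : pure combinatorics. -/
def Stmt_Count : Prop :=
  ∀ (I : Type) [Group I] [Fintype I] [DecidableEq I] (H A : Finset I) (f : I → ℝ) (θ κ : ℝ) (m : ℕ),
    0 < θ → θ ≤ 1 → 0 ≤ κ → κ ≤ 1 → (∀ s, 0 ≤ f s) → (∀ s, s ≠ 1 → f s ≤ θ) → (1 : I) ∈ H →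
    (1 : I) ∉ A → (∀ σ ∈ A, ∀ h ∈ H, σ * h ∈ A) → (∀ h ∈ H, h⁻¹ ∈ H) →
    (∀ h ∈ H, ∀ h' ∈ H, h * h' ∈ H) →
    (∀ σ ∈ A, ∏ h ∈ H, f (σ * h) ≤ κ * θ ^ H.card) → m * H.card ≤ A.card →
    ∏ s ∈ Finset.univ.erase (1 : I), f s ≤ θ ^ (Fintype.card I - 1) * κ ^ m

/-- **RAM-U** : Theorem U. -/
def Stmt_U : Prop :=
  ∀ (Ω : Type) [NormedField Ω] [IsUltrametricDist Ω] [CharZero Ω] (M : Subfield Ω) (I : Type)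
    [Group I] [Fintype I] [DecidableEq I] (a : I → Ω →+* Ω), GAct M I a →
    ∀ (J : Subgroup I) (p : ℕ) (Pi ζ α ε : Ω) (θ : ℝ), p.Prime → Pi ∈ M → ‖Pi‖ = θ → 0 < θ → θ < 1 →
    ζ ∈ fixR M a J → ζ ^ p = 1 → ζ ≠ 1 → α ∈ M → α ≠ 0 → α ^ p ∈ fixR M a J → ε ∈ fixR M a J →
    α - ε ≠ 0 → DH (fixR M a J) (α - ε) p → (∃ σ ∈ J, a σ α ≠ α) → ‖ζ - 1‖ * ‖α‖ ≤ ‖α - ε‖ →
    ∏ s ∈ Finset.univ.erase (1 : I), ‖Pi - a s Pi‖ ≤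
      θ ^ (Fintype.card I - 1) * (‖ζ - 1‖ * ‖α‖ / ‖α - ε‖) ^ (p - 1)

/-! ### D. reduction modulo `p`-th powers -/

/-- RAM-BINOM : `(1 + t)^p = 1 + t^p + p t r`, `‖r‖ ≤ 1`. -/
def Stmt_Binom : Prop :=
  ∀ (Ω : Type) [NormedField Ω] [IsUltrametricDist Ω] (p : ℕ) (t : Ω), p.Prime → ‖t‖ ≤ 1 →
    ∃ r : Ω, ‖r‖ ≤ 1 ∧ (1 + t) ^ p = 1 + t ^ p + (p : Ω) * t * r

/-- RAM-IMPROVE : if `‖a - 1‖ = ‖x‖^p` is not too small, `a` can be improved. -/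
def Stmt_Improve : Prop :=
  ∀ (Ω : Type) [NormedField Ω] [IsUltrametricDist Ω] (K : Subfield Ω) (p : ℕ), p.Prime →
    (∀ u ∈ K, ‖u‖ = 1 → ∃ c ∈ K, ‖u - c ^ p‖ < 1) →
    ∀ a ∈ K, ∀ x ∈ K, ‖a - 1‖ < 1 → ‖a - 1‖ = ‖x‖ ^ p → ‖(p : Ω)‖ ^ p < ‖a - 1‖ ^ (p - 1) →
    ∃ b ∈ K, b ≠ 0 ∧ ‖a * b ^ p - 1‖ < ‖a - 1‖

/-- **RAM-REDUCE**. -/
def Stmt_Reduce : Prop :=
  ∀ (Ω : Type) [NormedField Ω] [IsUltrametricDist Ω] (K : Subfield Ω) (p : ℕ), p.Prime →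
    (∃ π ∈ K, π ≠ 0 ∧ ‖π‖ < 1 ∧ ∀ x ∈ K, x ≠ 0 → ∃ n : ℤ, ‖x‖ = ‖π‖ ^ n) →
    (∀ u ∈ K, ‖u‖ = 1 → ∃ c ∈ K, ‖u - c ^ p‖ < 1) →
    ∀ l0 : ℝ, 0 < l0 → ‖(p : Ω)‖ ^ p ≤ l0 ^ (p - 1) → ∀ a ∈ K, a ≠ 0 →
    (∃ b ∈ K, b ≠ 0 ∧ ‖a * b ^ p - 1‖ ≤ l0) ∨
    (∃ b ∈ K, b ≠ 0 ∧ ‖a * b ^ p‖ < 1 ∧ ∀ z ∈ K, z ≠ 0 → ‖z‖ ^ p ≠ ‖a * b ^ p‖) ∨
    (∃ b ∈ K, b ≠ 0 ∧ l0 < ‖a * b ^ p - 1‖ ∧ ‖a * b ^ p - 1‖ < 1 ∧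
      ∀ z ∈ K, z ≠ 0 → ‖z‖ ^ p ≠ ‖a * b ^ p - 1‖)

/-- RAM-YNORM : `‖α - 1‖^p = ‖α^p - 1‖` if the latter is not too small. -/
def Stmt_YNorm : Prop :=
  ∀ (Ω : Type) [NormedField Ω] [IsUltrametricDist Ω] (p : ℕ) (α : Ω), p.Prime →
    ‖α ^ p - 1‖ < 1 → ‖(p : Ω)‖ ^ p < ‖α ^ p - 1‖ ^ (p - 1) →
    ‖α‖ = 1 ∧ ‖α - 1‖ ^ p = ‖α ^ p - 1‖ ∧ ‖(p : Ω)‖ < ‖α - 1‖ ^ (p - 1)

/-- RAM-DHK : `‖y‖ ∉ ‖Kˣ‖`, `‖y‖^p ∈ ‖Kˣ‖`, `‖Sˣ‖ ⊆ ‖Kˣ‖` give `DH S y p`. -/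
def Stmt_DHK : Prop :=
  ∀ (Ω : Type) [NormedField Ω] (K : Subfield Ω) (S : Subring Ω) (y : Ω) (p : ℕ), p.Prime → y ≠ 0 →
    (∀ x ∈ S, x ≠ 0 → ∃ z ∈ K, z ≠ 0 ∧ ‖x‖ = ‖z‖) → (∃ z ∈ K, z ≠ 0 ∧ ‖y‖ ^ p = ‖z‖) →
    (∀ z ∈ K, z ≠ 0 → ‖z‖ ^ p ≠ ‖y‖ ^ p) → DH S y p

end Fermat.Agent.TW56.Ram

end
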