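/-
TEAM TW56 -> S56, block FLAT, sub-block [RAM].  RAM-ZETA : the norm of `ζ - 1`.
-/
import Fermat.Agent.TW56.Ram.Abs

set_option autoImplicit false

noncomputable section

namespace Fermat.Agent.TW56.Ram

open Polynomial Finset

namespace Zeta

variable {Ω : Type*} [NormedField Ω] [IsUltrametricDist Ω]

/-- `‖ξ ^ k - 1‖ ≤ ‖ξ - 1‖` for `‖ξ‖ ≤ 1`. -/
theorem norm_pow_sub_one_le {ξ : Ω} (hξ : ‖ξ‖ ≤ 1) (k : ℕ) : ‖ξ ^ k - 1‖ ≤ ‖ξ - 1‖ := by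
  rw [← geom_sum_mul, norm_mul]
  have h1 : ‖∑ i ∈ range k, ξ ^ i‖ ≤ 1 := by
    apply IsUltrametricDist.norm_sum_le_of_forall_le_of_nonneg zero_le_one
    intro i _
    rw [norm_pow]
    exact pow_le_one₀ (norm_nonneg _) hξ
  exact mul_le_of_le_one_left (norm_nonneg _) h1

omit [IsUltrametricDist Ω] in
theorem norm_eq_one {ζ : Ω} {p : ℕ} (hp : p ≠ 0) (h : ζ ^ p = 1) : ‖ζ‖ = 1 := by
  have h1 : ‖ζ‖ ^ p = 1 := by rw [← norm_pow, h, norm_one]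
  exact (pow_eq_one_iff_of_nonneg (norm_nonneg _) hp).1 h1

/-- all the `ζ ^ k - 1`, `0 < k < p`, have the same norm. -/
theorem norm_pow_sub_one_eq {ζ : Ω} {p : ℕ} (hp : p.Prime) (h : ζ ^ p = 1) {k : ℕ} (hk0 : 0 < k)
    (hkp : k < p) : ‖ζ ^ k - 1‖ = ‖ζ - 1‖ := by
  have hζ : ‖ζ‖ = 1 := norm_eq_one hp.ne_zero h
  apply le_antisymm (norm_pow_sub_one_le hζ.le k)
  have hcop : Nat.Coprime k p := (Nat.coprime_of_lt_prime hk0.ne' hkp hp).symm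
  obtain ⟨m, -, hm⟩ := Nat.exists_mul_mod_eq_one_of_coprime hcop hp.one_lt
  have h1 : (ζ ^ k) ^ m = ζ := by
    rw [← pow_mul, pow_eq_pow_mod (k * m) h, hm, pow_one]
  have h2 : ‖ζ ^ k‖ ≤ 1 := by rw [norm_pow, hζ, one_pow]
  have h3 := norm_pow_sub_one_le h2 m
  rwa [h1] at h3

end Zeta

/-- **RAM-ZETA** -/
theorem stmt_Zeta : Stmt_Zeta := by
  intro Ω _ _ p ζ hp h h1
  have : Fact p.Prime := ⟨hp⟩
  refine ⟨?_, fun k => Zeta.norm_pow_sub_one_le (Zeta.norm_eq_one hp.ne_zero h).le k⟩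
  have hprim : IsPrimitiveRoot ζ p := by
    have := IsPrimitiveRoot.orderOf ζ
    rwa [orderOf_eq_prime h h1] at this
  obtain ⟨n, rfl⟩ : ∃ n, p = n + 1 := ⟨p - 1, (Nat.succ_pred_eq_of_pos hp.pos).symm⟩
  have h2 := hprim.prod_one_sub_pow_eq_order
  have h3 : ‖∏ k ∈ range n, (1 - ζ ^ (k + 1))‖ = ‖ζ - 1‖ ^ n := by
    rw [norm_prod]
    have h4 : ∀ k ∈ range n, ‖1 - ζ ^ (k + 1)‖ = ‖ζ - 1‖ := by
      intro k hk
      rw [norm_sub_rev]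
      exact Zeta.norm_pow_sub_one_eq hp h (Nat.succ_pos k) (Nat.succ_lt_succ (Finset.mem_range.1 hk))
    rw [Finset.prod_congr rfl h4, Finset.prod_const, Finset.card_range]
  rw [Nat.add_sub_cancel, ← h3, h2]
  push_cast
  rfl

end Fermat.Agent.TW56.Ram

end
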