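/-
TEAM TW56 -> S56, block FLAT, sub-block RAM, package RAM-APPROX (helper2):
`R0[β]` is dense in the integers of `M`.
-/
import Fermat.Agent.TW56.Ram.Abs

set_option autoImplicit false

noncomputable section

namespace Fermat.Agent.TW56.Ram

open Polynomial

/-- RAM-APPROX. -/
theorem stmt_Approx : Stmt_Approx := by
  intro Ω _ _ M R0 θ β hθ0 hθ1 hdisc hres hR0M hβM hβ
  have hβ0 : β ≠ 0 := by
    intro h
    rw [h, norm_zero] at hβ
    exact hθ0.ne hβ
  have haM : ∀ f : R0[X], aeval β f ∈ M := by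
    intro f
    rw [Polynomial.aeval_eq_sum_range]
    refine M.sum_mem fun i _ => ?_
    rw [Algebra.smul_def]
    exact M.mul_mem (hR0M _ (f.coeff i).2) (M.pow_mem hβM i)
  have key : ∀ n : ℕ, ∀ x ∈ M, ‖x‖ ≤ 1 → ∃ f : R0[X], ‖x - aeval β f‖ ≤ θ ^ n := by
    intro n
    induction n with
    | zero =>
      intro x _ hx1
      exact ⟨0, by simpa using hx1⟩
    | succ n ih =>
      intro x hx hx1
      obtain ⟨f, hf⟩ := ih x hx hx1
      obtain ⟨z, hz⟩ : ∃ z, z = (x - aeval β f) / β ^ n := ⟨_, rfl⟩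
      have hzM : z ∈ M := by
        rw [hz]
        exact M.div_mem (M.sub_mem hx (haM f)) (M.pow_mem hβM n)
      have hz1 : ‖z‖ ≤ 1 := by
        rw [hz, norm_div, norm_pow, hβ]
        exact div_le_one_of_le₀ hf (by positivity)
      obtain ⟨c, hc, hzc⟩ := hres z hzM hz1
      have h1 : ‖z - c‖ ≤ θ := hdisc _ (M.sub_mem hzM (hR0M c hc)) hzc
      refine ⟨f + C ⟨c, hc⟩ * X ^ n, ?_⟩
      have e : x - aeval β (f + C (⟨c, hc⟩ : R0) * X ^ n) = (z - c) * β ^ n := by
        rw [map_add, map_mul, aeval_C, map_pow, aeval_X]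
        show x - (aeval β f + c * β ^ n) = _
        rw [sub_mul, hz, div_mul_cancel₀ _ (pow_ne_zero n hβ0)]
        ring
      rw [e, norm_mul, norm_pow, hβ, pow_succ, mul_comm]
      exact mul_le_mul_of_nonneg_left h1 (by positivity)
  intro x hx hx1 c hc
  obtain ⟨n, hn⟩ := exists_pow_lt_of_lt_one hc hθ1
  obtain ⟨f, hf⟩ := key n x hx hx1
  exact ⟨f, hf.trans hn.le⟩

end Fermat.Agent.TW56.Ram

end
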