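/-
TEAM TW56 -> S56, block FLAT, sub-block [RAM], packages RAM-BINOM, RAM-YNORM, RAM-IMPROVE (helper48).
-/
import Fermat.Agent.TW56.Ram.Abs

set_option autoImplicit false

noncomputable section

namespace Fermat.Agent.TW56.Ram

namespace Binom

variable {W : Type} [NormedField W] [IsUltrametricDist W]

theorem norm_add_lt {x y : W} {B : ℝ} (hx : ‖x‖ < B) (hy : ‖y‖ < B) : ‖x + y‖ < B :=
  (IsUltrametricDist.norm_add_le_max x y).trans_lt (max_lt hx hy)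

theorem norm_add_le {x y : W} {B : ℝ} (hx : ‖x‖ ≤ B) (hy : ‖y‖ ≤ B) : ‖x + y‖ ≤ B :=
  (IsUltrametricDist.norm_add_le_max x y).trans (max_le hx hy)

theorem norm_add_eq_left {x y : W} (h : ‖y‖ < ‖x‖) : ‖x + y‖ = ‖x‖ := by
  rw [IsUltrametricDist.norm_add_eq_max_of_norm_ne_norm h.ne']
  exact max_eq_left h.le

end Binom

open Binom

/-- RAM-BINOM -/
theorem stmt_Binom : Stmt_Binom := by
  intro W _ _ p t hp ht
  refine ⟨∑ k ∈ Finset.Ioo 0 p, (1 : W) ^ (k - 1) * t ^ (p - k - 1) * ((p.choose k / p : ℕ) : W),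
    ?_, ?_⟩
  · refine IsUltrametricDist.norm_sum_le_of_forall_le_of_nonneg zero_le_one (fun k _ => ?_)
    rw [one_pow, one_mul, norm_mul, norm_pow]
    exact mul_le_one₀ (pow_le_one₀ (norm_nonneg _) ht) (norm_nonneg _)
      (IsUltrametricDist.norm_natCast_le_one W _)
  · have h := add_pow_prime_eq hp (1 : W) t
    rw [h, one_pow, mul_one]

/-- RAM-YNORM -/
theorem stmt_YNorm (h : Stmt_Binom) : Stmt_YNorm := by
  intro W _ _ p α hp h1 h2
  have hp0 : p ≠ 0 := hp.ne_zero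
  have hp1 : p - 1 ≠ 0 := by have := hp.two_le; omega
  have hpp : p - 1 + 1 = p := by have := hp.two_le; omega
  have hαp : ‖α ^ p‖ = 1 := by
    have e1 : α ^ p = 1 + (α ^ p - 1) := by ring
    rw [e1, norm_add_eq_left (by rw [norm_one]; exact h1), norm_one]
  have hα : ‖α‖ = 1 := by
    rw [norm_pow] at hαp
    exact (pow_eq_one_iff_of_nonneg (norm_nonneg _) hp0).1 hαp
  set t : W := α - 1 with ht
  have ht1 : ‖t‖ ≤ 1 := by
    rw [ht, sub_eq_add_neg]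
    exact norm_add_le hα.le (by rw [norm_neg, norm_one])
  obtain ⟨r, hr, hb⟩ := h W p t hp ht1
  have hexp : α ^ p - 1 = t ^ p + (p : W) * t * r := by
    have e1 : α = 1 + t := by rw [ht]; ring
    rw [e1, hb]; ring
  have hptr : ‖(p : W) * t * r‖ ≤ ‖(p : W)‖ * ‖t‖ := by
    rw [norm_mul, norm_mul]
    exact mul_le_of_le_one_right (by positivity) hr
  have htp : ‖t ^ p‖ = ‖t‖ ^ (p - 1) * ‖t‖ := by
    rw [norm_pow, ← pow_succ, hpp]
  have hlt : ‖(p : W)‖ < ‖t‖ ^ (p - 1) := by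
    by_contra hge
    have hge : ‖t‖ ^ (p - 1) ≤ ‖(p : W)‖ := not_lt.1 hge
    have h3 : ‖α ^ p - 1‖ ≤ ‖(p : W)‖ * ‖t‖ := by
      rw [hexp]
      refine norm_add_le ?_ hptr
      rw [htp]
      exact mul_le_mul_of_nonneg_right hge (norm_nonneg _)
    have h4 : ‖α ^ p - 1‖ ^ (p - 1) ≤ ‖(p : W)‖ ^ p := by
      calc ‖α ^ p - 1‖ ^ (p - 1) ≤ (‖(p : W)‖ * ‖t‖) ^ (p - 1) :=
            pow_le_pow_left₀ (norm_nonneg _) h3 _
        _ = ‖(p : W)‖ ^ (p - 1) * ‖t‖ ^ (p - 1) := mul_pow _ _ _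
        _ ≤ ‖(p : W)‖ ^ (p - 1) * ‖(p : W)‖ := mul_le_mul_of_nonneg_left hge (by positivity)
        _ = ‖(p : W)‖ ^ p := by rw [← pow_succ, hpp]
    exact absurd h2 (not_lt.2 h4)
  have ht0 : 0 < ‖t‖ := by
    rcases (norm_nonneg t).eq_or_lt with h0 | h0
    · rw [← h0, zero_pow hp1] at hlt
      exact absurd hlt (not_lt.2 (norm_nonneg _))
    · exact h0
  refine ⟨hα, ?_, hlt⟩
  rw [hexp, norm_add_eq_left, norm_pow]
  rw [htp]
  exact hptr.trans_lt (mul_lt_mul_of_pos_right hlt ht0)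

/-- RAM-IMPROVE -/
theorem stmt_Improve (h : Stmt_Binom) : Stmt_Improve := by
  intro W _ _ K p hp hres a ha x hx h1 h2 h3
  have hp0 : p ≠ 0 := hp.ne_zero
  have hp1 : p - 1 ≠ 0 := by have := hp.two_le; omega
  have hpp : p - 1 + 1 = p := by have := hp.two_le; omega
  have hx0 : x ≠ 0 := by
    rintro rfl
    rw [h2, norm_zero, zero_pow hp0, zero_pow hp1] at h3
    exact absurd h3 (not_lt.2 (by positivity))
  have hxpos : 0 < ‖x‖ := norm_pos_iff.2 hx0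
  have hx1 : ‖x‖ < 1 := by
    rw [h2] at h1
    exact (pow_lt_one_iff_of_nonneg (norm_nonneg _) hp0).1 h1
  have hxp0 : x ^ p ≠ 0 := pow_ne_zero _ hx0
  set u : W := (a - 1) / x ^ p with hu
  have huK : u ∈ K := K.div_mem (K.sub_mem ha K.one_mem) (K.pow_mem hx p)
  have hu1 : ‖u‖ = 1 := by
    rw [hu, norm_div, h2, norm_pow, div_self (by positivity)]
  have hau : a = 1 + u * x ^ p := by
    rw [hu, div_mul_cancel₀ _ hxp0]; ring
  obtain ⟨c, hcK, hc⟩ := hres (-u) (K.neg_mem huK) (by rw [norm_neg, hu1])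
  have hc1 : ‖c‖ ≤ 1 := by
    have e1 : c ^ p = -u + -(-u - c ^ p) := by ring
    have h4 : ‖c ^ p‖ ≤ 1 := by
      rw [e1]
      exact norm_add_le (by rw [norm_neg, hu1]) (by rw [norm_neg]; exact hc.le)
    rw [norm_pow] at h4
    exact (pow_le_one_iff_of_nonneg (norm_nonneg _) hp0).1 h4
  have hcx : ‖c * x‖ < 1 := by
    rw [norm_mul]
    exact (mul_le_of_le_one_left hxpos.le hc1).trans_lt hx1
  obtain ⟨r, hr, hb⟩ := h W p (c * x) hp hcx.le
  have ha1 : ‖a‖ ≤ 1 := by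
    have e1 : a = (a - 1) + 1 := by ring
    rw [e1]
    exact norm_add_le h1.le (by rw [norm_one])
  have hplt : ‖(p : W)‖ < ‖x‖ ^ (p - 1) := by
    refine lt_of_pow_lt_pow_left₀ p (by positivity) ?_
    rw [h2, ← pow_mul, mul_comm] at h3
    rw [← pow_mul]
    exact h3
  refine ⟨1 + c * x, K.add_mem K.one_mem (K.mul_mem hcK hx), ?_, ?_⟩
  · intro h0
    have e1 : c * x = -1 := by linear_combination h0
    rw [e1, norm_neg, norm_one] at hcx
    exact lt_irrefl _ hcx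
  · have hexp : a * (1 + c * x) ^ p - 1 = (u + c ^ p) * x ^ p + u * c ^ p * (x ^ p * x ^ p)
        + (p : W) * (c * x) * r * a := by
      rw [hb]
      conv_lhs => rw [hau]
      conv_rhs => rw [hau]
      ring
    have hXpos : 0 < ‖x‖ ^ p := by positivity
    have hX1 : ‖x‖ ^ p < 1 := by rw [← h2]; exact h1
    rw [hexp, h2]
    refine norm_add_lt (norm_add_lt ?_ ?_) ?_
    · rw [norm_mul, norm_pow]
      have e1 : ‖u + c ^ p‖ < 1 := by
        have : u + c ^ p = -(-u - c ^ p) := by ring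
        rw [this, norm_neg]; exact hc
      calc ‖u + c ^ p‖ * ‖x‖ ^ p < 1 * ‖x‖ ^ p := mul_lt_mul_of_pos_right e1 hXpos
        _ = _ := one_mul _
    · rw [norm_mul, norm_mul, norm_mul, hu1, one_mul, norm_pow, norm_pow]
      have e1 : ‖c‖ ^ p ≤ 1 := pow_le_one₀ (norm_nonneg _) hc1
      calc ‖c‖ ^ p * (‖x‖ ^ p * ‖x‖ ^ p) ≤ 1 * (‖x‖ ^ p * ‖x‖ ^ p) :=
            mul_le_mul_of_nonneg_right e1 (by positivity)
        _ = ‖x‖ ^ p * ‖x‖ ^ p := one_mul _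
        _ < 1 * ‖x‖ ^ p := mul_lt_mul_of_pos_right hX1 hXpos
        _ = _ := one_mul _
    · rw [norm_mul, norm_mul, norm_mul, norm_mul]
      have e1 : ‖(p : W)‖ * (‖c‖ * ‖x‖) * ‖r‖ * ‖a‖ ≤ ‖(p : W)‖ * ‖x‖ := by
        have e2 : ‖c‖ * ‖x‖ ≤ ‖x‖ := mul_le_of_le_one_left hxpos.le hc1
        calc ‖(p : W)‖ * (‖c‖ * ‖x‖) * ‖r‖ * ‖a‖ ≤ ‖(p : W)‖ * (‖c‖ * ‖x‖) * ‖r‖ :=
              mul_le_of_le_one_right (by positivity) ha1
          _ ≤ ‖(p : W)‖ * (‖c‖ * ‖x‖) := mul_le_of_le_one_right (by positivity) hr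
          _ ≤ ‖(p : W)‖ * ‖x‖ := mul_le_mul_of_nonneg_left e2 (norm_nonneg _)
      refine e1.trans_lt ?_
      calc ‖(p : W)‖ * ‖x‖ < ‖x‖ ^ (p - 1) * ‖x‖ := mul_lt_mul_of_pos_right hplt hxpos
        _ = ‖x‖ ^ p := by rw [← pow_succ, hpp]

end Fermat.Agent.TW56.Ram

end
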