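/-
TEAM TW56 -> S56, block FLAT, sub-block [RAM].  RAM-COUNT : combinatorics of cosets (`Stmt_Count`).

`A` is stable under right multiplication by the finite subgroup `H`, hence a disjoint union of left
cosets `σH`; on each of them the product of `f` is at most `κ θ^#H`.
-/
import Fermat.Agent.TW56.Ram.Abs

set_option autoImplicit false

noncomputable section

namespace Fermat.Agent.TW56.Ram

namespace Count

/-- A right-`H`-stable set is a union of `N` cosets, and the product of `f` over it is at most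
`κ ^ N * θ ^ #A`. -/
theorem coset (I : Type) [Group I] [DecidableEq I] (H : Finset I) (f : I → ℝ) (θ κ : ℝ)
    (hθ : 0 < θ) (hκ : 0 ≤ κ) (hf : ∀ s, 0 ≤ f s) (h1 : (1 : I) ∈ H)
    (hinv : ∀ h ∈ H, h⁻¹ ∈ H) (hmul : ∀ h ∈ H, ∀ h' ∈ H, h * h' ∈ H) :
    ∀ A : Finset I, (∀ σ ∈ A, ∀ h ∈ H, σ * h ∈ A) →
      (∀ σ ∈ A, ∏ h ∈ H, f (σ * h) ≤ κ * θ ^ H.card) →
      ∃ N : ℕ, A.card = N * H.card ∧ ∏ s ∈ A, f s ≤ κ ^ N * θ ^ A.card := by
  intro A
  induction A using Finset.strongInduction with
  | H A ih =>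
    intro hst hb
    rcases A.eq_empty_or_nonempty with rfl | ⟨σ, hσ⟩
    · exact ⟨0, by simp, by simp⟩
    · have hBdef : ∀ x, x ∈ H.image (fun h => σ * h) ↔ ∃ h ∈ H, σ * h = x := fun x =>
        Finset.mem_image
      generalize hB : H.image (fun h => σ * h) = B at hBdef
      have hBA : B ⊆ A := by
        intro x hx
        obtain ⟨h, hh, rfl⟩ := (hBdef x).1 hx
        exact hst σ hσ h hh
      have hBcard : B.card = H.card := by
        rw [← hB]
        exact Finset.card_image_of_injective _ (mul_right_injective σ)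
      have hσB : σ ∈ B := (hBdef σ).2 ⟨1, h1, mul_one σ⟩
      have hss : A \ B ⊂ A := by
        refine Finset.ssubset_iff_subset_ne.2 ⟨Finset.sdiff_subset, ?_⟩
        intro h
        have h' : σ ∈ A \ B := by rw [h]; exact hσ
        exact (Finset.mem_sdiff.1 h').2 hσB
      have hst' : ∀ τ ∈ A \ B, ∀ h ∈ H, τ * h ∈ A \ B := by
        intro τ hτ h hh
        obtain ⟨hτA, hτB⟩ := Finset.mem_sdiff.1 hτ
        refine Finset.mem_sdiff.2 ⟨hst τ hτA h hh, ?_⟩
        intro hmem
        obtain ⟨h', hh', he⟩ := (hBdef _).1 hmem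
        apply hτB
        refine (hBdef τ).2 ⟨h' * h⁻¹, hmul h' hh' _ (hinv h hh), ?_⟩
        rw [← mul_assoc, he, mul_assoc, mul_inv_cancel, mul_one]
      have hb' : ∀ τ ∈ A \ B, ∏ h ∈ H, f (τ * h) ≤ κ * θ ^ H.card := fun τ hτ =>
        hb τ (Finset.mem_sdiff.1 hτ).1
      obtain ⟨N, hN, hP⟩ := ih (A \ B) hss hst' hb'
      have hcard : (A \ B).card + H.card = A.card := by
        rw [← hBcard]
        exact Finset.card_sdiff_add_card_eq_card hBA
      refine ⟨N + 1, ?_, ?_⟩
      · rw [← hcard, hN]; ring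
      · have hPB : ∏ s ∈ B, f s = ∏ h ∈ H, f (σ * h) := by
          rw [← hB]
          exact Finset.prod_image (fun x _ y _ h => mul_right_injective σ h)
        rw [← Finset.prod_sdiff hBA, hPB, ← hcard]
        calc (∏ s ∈ A \ B, f s) * ∏ h ∈ H, f (σ * h)
            ≤ (κ ^ N * θ ^ (A \ B).card) * (κ * θ ^ H.card) := by
              apply mul_le_mul hP (hb σ hσ) (Finset.prod_nonneg fun s _ => hf _)
              positivity
          _ = κ ^ (N + 1) * θ ^ ((A \ B).card + H.card) := by ring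

end Count

/-- RAM-COUNT : pure combinatorics. -/
theorem stmt_Count : Stmt_Count := by
  intro I _ _ _ H A f θ κ m hθ hθ1 hκ hκ1 hf hfθ h1 h1A hst hinv hmul hb hm
  obtain ⟨N, hN, hP⟩ := Count.coset I H f θ κ hθ hκ hf h1 hinv hmul A hst hb
  have hHpos : 0 < H.card := Finset.card_pos.2 ⟨1, h1⟩
  have hmN : m ≤ N := by
    rw [hN] at hm
    exact Nat.le_of_mul_le_mul_right hm hHpos
  have hAE : A ⊆ Finset.univ.erase (1 : I) := by
    intro x hx
    refine Finset.mem_erase.2 ⟨?_, Finset.mem_univ x⟩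
    rintro rfl
    exact h1A hx
  have hEcard : (Finset.univ.erase (1 : I)).card = Fintype.card I - 1 := by
    rw [Finset.card_erase_of_mem (Finset.mem_univ _), Finset.card_univ]
  have hcard : (Finset.univ.erase (1 : I) \ A).card + A.card = Fintype.card I - 1 := by
    rw [← hEcard]
    exact Finset.card_sdiff_add_card_eq_card hAE
  have hrest : ∏ s ∈ Finset.univ.erase (1 : I) \ A, f s ≤
      θ ^ (Finset.univ.erase (1 : I) \ A).card := by
    rw [← Finset.prod_const]
    apply Finset.prod_le_prod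
    · intro s _
      exact hf s
    · intro s hs
      exact hfθ s (Finset.mem_erase.1 (Finset.mem_sdiff.1 hs).1).1
  rw [← Finset.prod_sdiff hAE, ← hcard]
  calc (∏ s ∈ Finset.univ.erase (1 : I) \ A, f s) * ∏ s ∈ A, f s
      ≤ θ ^ (Finset.univ.erase (1 : I) \ A).card * (κ ^ N * θ ^ A.card) := by
        apply mul_le_mul hrest hP (Finset.prod_nonneg fun s _ => hf _)
        positivity
    _ = θ ^ ((Finset.univ.erase (1 : I) \ A).card + A.card) * κ ^ N := by ring
    _ ≤ θ ^ ((Finset.univ.erase (1 : I) \ A).card + A.card) * κ ^ m := by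
        apply mul_le_mul_of_nonneg_left (pow_le_pow_of_le_one hκ hκ1 hmN)
        positivity

end Fermat.Agent.TW56.Ram
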