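/-
TEAM TW56 -> S56, block FLAT, sub-block [RAM], package RAM-DHK (helper59):
distinct norms from `‖y‖ ∉ ‖Kˣ‖`.
-/
import Fermat.Agent.TW56.Ram.Abs

set_option autoImplicit false

noncomputable section

namespace Fermat.Agent.TW56.Ram

theorem stmt_DHK : Stmt_DHK := by
  intro Ω _ K S y p hp hy hS hz0' hno x hx x' hx' hx0 hx'0 i k hik hkp heq
  obtain ⟨z0, hz0K, hz0, hyz0⟩ := hz0'
  obtain ⟨z1, hz1K, hz1, e1⟩ := hS x hx hx0
  obtain ⟨z2, hz2K, hz2, e2⟩ := hS x' hx' hx'0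
  have hny : ‖y‖ ≠ 0 := norm_ne_zero_iff.2 hy
  obtain ⟨d, rfl⟩ : ∃ d, k = i + d := ⟨k - i, by omega⟩
  have hd0 : 0 < d := by omega
  have hdp : d < p := by omega
  have hyd : ‖y‖ ^ d = ‖z1 / z2‖ := by
    rw [norm_div, ← e1, ← e2, eq_div_iff (norm_ne_zero_iff.2 hx'0)]
    have h1 : ‖x‖ * ‖y‖ ^ i = (‖y‖ ^ d * ‖x'‖) * ‖y‖ ^ i := by
      rw [heq, pow_add]
      ring
    exact (mul_right_cancel₀ (pow_ne_zero i hny) h1).symm
  have hcop : Nat.Coprime d p := by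
    rw [Nat.coprime_comm, Nat.Prime.coprime_iff_not_dvd hp]
    exact fun h => absurd (Nat.le_of_dvd hd0 h) (by omega)
  have hb : (d : ℤ) * Nat.gcdA d p + (p : ℤ) * Nat.gcdB d p = 1 := by
    have := Nat.gcd_eq_gcd_ab d p
    rw [hcop] at this
    exact_mod_cast this.symm
  have hzK : (z1 / z2) ^ (Nat.gcdA d p) * z0 ^ (Nat.gcdB d p) ∈ K :=
    K.mul_mem (zpow_mem (K.div_mem hz1K hz2K) _) (zpow_mem hz0K _)
  have hz : (z1 / z2) ^ (Nat.gcdA d p) * z0 ^ (Nat.gcdB d p) ≠ 0 :=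
    mul_ne_zero (zpow_ne_zero _ (div_ne_zero hz1 hz2)) (zpow_ne_zero _ hz0)
  have hnz : ‖(z1 / z2) ^ (Nat.gcdA d p) * z0 ^ (Nat.gcdB d p)‖ = ‖y‖ := by
    rw [norm_mul, norm_zpow, norm_zpow, ← hyd, ← hyz0, ← zpow_natCast, ← zpow_natCast,
      ← zpow_mul, ← zpow_mul, ← zpow_add₀ hny, hb, zpow_one]
  exact hno _ hzK hz (by rw [hnz])

end Fermat.Agent.TW56.Ram

end
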