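/-
TEAM TW56 -> S56, block FLAT, sub-block [RAM] : RAM-DERPROD (`‖P0'(Π)‖ = ∏_{s ≠ 1} ‖Π - sΠ‖`) and
RAM-DIFFINV (the different does not depend on the uniformiser).
-/
import Fermat.Agent.TW56.Ram.Abs

set_option autoImplicit false

noncomputable section

namespace Fermat.Agent.TW56.Ram

open Polynomial

namespace DerProd

variable {Ω : Type} [NormedField Ω] [IsUltrametricDist Ω] {M : Subfield Ω} {I : Type} [Group I]
  {a : I → Ω →+* Ω}

/-- an element fixing the uniformiser is trivial. -/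
theorem eq_one_of_fix (h : Stmt_MoveUnif) (hG : GAct M I a) (R0 : Subring Ω) (Pi : Ω)
    (hR0 : ∀ r ∈ R0, ‖r‖ ≤ 1) (hfix : ∀ r ∈ R0, ∀ s, a s r = r) (hPi1 : ‖Pi‖ ≤ 1)
    (hApp : Approx R0 M Pi) (u : I) (hu : a u Pi = Pi) : u = 1 := by
  have h1 : ∀ x ∈ M, ‖x‖ ≤ 1 → a u x = x := by
    intro x hx hx1
    have := h Ω M I a hG R0 Pi hR0 hfix hPi1 hApp u x hx hx1
    rw [hu, sub_self, norm_zero] at this
    exact sub_eq_zero.1 (norm_le_zero_iff.1 this)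
  apply hG.faithful
  intro x hx
  by_cases hx1 : ‖x‖ ≤ 1
  · exact h1 x hx hx1
  · have hx2 : 1 < ‖x‖ := not_le.1 hx1
    have h3 : ‖x⁻¹‖ ≤ 1 := by
      rw [norm_inv]
      exact inv_le_one_of_one_le₀ hx2.le
    have h4 := h1 x⁻¹ (M.inv_mem hx) h3
    rw [map_inv₀] at h4
    exact inv_injective h4

/-- `s ↦ s Π` is injective. -/
theorem injective (h : Stmt_MoveUnif) (hG : GAct M I a) (R0 : Subring Ω) (Pi : Ω)
    (hR0 : ∀ r ∈ R0, ‖r‖ ≤ 1) (hfix : ∀ r ∈ R0, ∀ s, a s r = r) (hPiM : Pi ∈ M) (hPi1 : ‖Pi‖ ≤ 1)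
    (hApp : Approx R0 M Pi) : Function.Injective (fun s => a s Pi) := by
  intro s t hst
  have hst' : a s Pi = a t Pi := hst
  have hu : a (s⁻¹ * t) Pi = Pi := by
    rw [hG.mul _ _ _ hPiM, ← hst', ← hG.mul _ _ _ hPiM, inv_mul_cancel, hG.one _ hPiM]
  have := eq_one_of_fix h hG R0 Pi hR0 hfix hPi1 hApp _ hu
  exact (inv_mul_eq_one.1 this)

omit [IsUltrametricDist Ω] [Group I] in
/-- the conjugates of a root are roots. -/
theorem aeval_conj (R0 : Subring Ω) (hfix : ∀ r ∈ R0, ∀ s, a s r = r) (Pi : Ω) (P0 : R0[X])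
    (s : I) : aeval (a s Pi) P0 = a s (aeval Pi P0) := by
  rw [aeval_def, aeval_def, hom_eval₂]
  congr 1
  ext r
  exact (hfix r r.2 s).symm

/-- the factorisation of `P0`. -/
theorem map_eq_prod [Fintype I] (h : Stmt_MoveUnif) (hG : GAct M I a) (R0 : Subring Ω) (Pi : Ω)
    (P0 : R0[X]) (hR0 : ∀ r ∈ R0, ‖r‖ ≤ 1) (hfix : ∀ r ∈ R0, ∀ s, a s r = r) (hPiM : Pi ∈ M)
    (hPi1 : ‖Pi‖ ≤ 1) (hApp : Approx R0 M Pi) (hmon : P0.Monic)
    (hdeg : P0.natDegree = Fintype.card I) (hroot : aeval Pi P0 = 0) :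
    P0.map (algebraMap R0 Ω) = ∏ s, (X - C (a s Pi)) := by
  have hinj := injective h hG R0 Pi hR0 hfix hPiM hPi1 hApp
  refine eq_of_monic_of_dvd_of_natDegree_le (monic_prod_X_sub_C _ _) (hmon.map _) ?_ ?_
  · refine Fintype.prod_dvd_of_coprime (pairwise_coprime_X_sub_C hinj) (fun s => ?_)
    rw [dvd_iff_isRoot, IsRoot.def, eval_map_algebraMap, aeval_conj R0 hfix, hroot, map_zero]
  · rw [natDegree_finsetProd_X_sub_C_eq_card, hmon.natDegree_map, hdeg, Finset.card_univ]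

end DerProd

/-- **RAM-DERPROD** -/
theorem stmt_DerProd (h : Stmt_MoveUnif) : Stmt_DerProd := by
  intro Ω _ _ M I _ _ _ a hG R0 Pi P0 hR0 hfix hPiM hPi1 hApp hmon hdeg hroot
  have hP := DerProd.map_eq_prod h hG R0 Pi P0 hR0 hfix hPiM hPi1 hApp hmon hdeg hroot
  have h1 : aeval Pi (derivative P0) = ∏ s ∈ Finset.univ.erase (1 : I), (Pi - a s Pi) := by
    rw [← eval_map_algebraMap, ← derivative_map, hP, derivative_prod_finset, eval_finsetSum,
      Finset.sum_eq_single (1 : I)]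
    · simp [eval_prod]
    · intro s _ hs
      rw [eval_mul, eval_prod]
      have : ∏ j ∈ Finset.univ.erase s, eval Pi (X - C (a j Pi)) = 0 := by
        apply Finset.prod_eq_zero (Finset.mem_erase.2 ⟨Ne.symm hs, Finset.mem_univ (1 : I)⟩)
        simp [hG.one Pi hPiM]
      rw [this, zero_mul]
    · intro h1
      exact absurd (Finset.mem_univ _) h1
  rw [h1, norm_prod]

/-- **RAM-DIFFINV** -/
theorem stmt_DiffInv (h : Stmt_MoveUnif) (h' : Stmt_DerProd) : Stmt_DiffInv := by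
  intro Ω _ _ M I _ _ a hG R0 Pi β P0 Q hR0 hfix hPiM hPi1 hApp hmon hdeg hroot hβM hβ1 hAppβ hmonQ
    hdegQ hrootQ
  classical
  rw [h' Ω M I a hG R0 Pi P0 hR0 hfix hPiM hPi1 hApp hmon hdeg hroot,
    h' Ω M I a hG R0 β Q hR0 hfix hβM hβ1 hAppβ hmonQ hdegQ hrootQ]
  refine Finset.prod_congr rfl (fun s _ => ?_)
  rw [norm_sub_rev β, norm_sub_rev Pi]
  exact le_antisymm (h Ω M I a hG R0 Pi hR0 hfix hPi1 hApp s β hβM hβ1)
    (h Ω M I a hG R0 β hR0 hfix hβ1 hAppβ s Pi hPiM hPi1)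

end Fermat.Agent.TW56.Ram

end
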