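/-
TEAM TW56 -> S56, block FLAT, sub-block [RAM] (architect helper31).  RAM-BDH, RAM-EIS.
-/
import Fermat.Agent.TW56.Ram.Abs

set_option autoImplicit false

noncomputable section

namespace Fermat.Agent.TW56.Ram

open Polynomial

namespace Eis

variable {Ω : Type} [NormedField Ω]

theorem coeff_le {R0 : Subring Ω} {θ : ℝ} {e : ℕ} (hB : Base R0 θ e) (r : Ω) (hr : r ∈ R0)
    (h1 : ‖r‖ < 1) : ‖r‖ ≤ θ ^ e := by
  by_cases h0 : r = 0
  · rw [h0, norm_zero]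
    exact pow_nonneg hB.θ0.le e
  obtain ⟨n, hn⟩ := hB.val r hr h0
  have hn0 : n ≠ 0 := by
    rintro rfl
    rw [hn] at h1
    simp at h1
  rw [hn]
  exact pow_le_pow_of_le_one hB.θ0.le hB.θ1.le (Nat.le_mul_of_pos_right e (Nat.pos_of_ne_zero hn0))

theorem aeval_sum {R0 : Subring Ω} (Q : R0[X]) (β : Ω) (e : ℕ) (he : Q.natDegree = e) :
    aeval β Q = ∑ i ∈ Finset.range (e + 1), (Q.coeff i : Ω) * β ^ i := by
  rw [aeval_eq_sum_range, he]
  rfl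

end Eis

theorem stmt_BaseDH : Stmt_BaseDH := by
  intro Ω _ R0 θ e β hB hβ x hx x' hx' hx0 hx'0 i k hik hke heq
  obtain ⟨n, hn⟩ := hB.val x hx hx0
  obtain ⟨n', hn'⟩ := hB.val x' hx' hx'0
  rw [hn, hn', hβ, ← pow_add, ← pow_add] at heq
  have h1 : e * n + i = e * n' + k := pow_right_injective₀ hB.θ0 hB.θ1.ne heq
  have h2 : (e * n + i) % e = (e * n' + k) % e := by rw [h1]
  rw [Nat.mul_add_mod, Nat.mul_add_mod, Nat.mod_eq_of_lt (hik.trans hke), Nat.mod_eq_of_lt hke] at h2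
  exact hik.ne h2

theorem stmt_EisRoot : Stmt_EisRoot := by
  intro Ω _ _ R0 θ e Q β hB hQ hroot
  obtain ⟨hmon, hdeg, hsmall, hc0⟩ := hQ
  have he : 0 < e := hB.he
  have hθe : 0 < θ ^ e := pow_pos hB.θ0 e
  have hce : (Q.coeff e : Ω) = 1 := by
    have : Q.coeff e = 1 := by rw [← hdeg]; exact hmon.coeff_natDegree
    rw [this]
    rfl
  have hle : ∀ i < e, ‖(Q.coeff i : Ω)‖ ≤ θ ^ e := fun i hi =>
    Eis.coeff_le hB _ (Q.coeff i).2 (hsmall i hi)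
  have hsum := Eis.aeval_sum Q β e hdeg
  rw [hroot] at hsum
  rcases lt_trichotomy ‖β‖ θ with hlt | heq | hgt
  · exfalso
    rw [Finset.sum_range_succ'] at hsum
    have h1 : (Q.coeff 0 : Ω) = -∑ i ∈ Finset.range e, (Q.coeff (i + 1) : Ω) * β ^ (i + 1) := by
      rw [pow_zero, mul_one] at hsum
      exact eq_neg_of_add_eq_zero_right hsum.symm
    obtain ⟨i, hi, hbd⟩ := IsUltrametricDist.exists_norm_finsetSum_le_of_nonempty
      (Finset.nonempty_range_iff.2 he.ne') (fun i => (Q.coeff (i + 1) : Ω) * β ^ (i + 1))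
    rw [← norm_neg, ← h1, hc0, norm_mul, norm_pow] at hbd
    have hi' : i < e := Finset.mem_range.1 hi
    have hβ1 : ‖β‖ < 1 := hlt.trans hB.θ1
    rcases Nat.lt_or_ge (i + 1) e with h2 | h2
    · have h3 : ‖β‖ ^ (i + 1) < 1 := pow_lt_one₀ (norm_nonneg _) hβ1 (Nat.succ_ne_zero i)
      have h4 : ‖(Q.coeff (i + 1) : Ω)‖ * ‖β‖ ^ (i + 1) ≤ θ ^ e * ‖β‖ ^ (i + 1) :=
        mul_le_mul_of_nonneg_right (hle _ h2) (pow_nonneg (norm_nonneg _) _)
      have h5 : θ ^ e * ‖β‖ ^ (i + 1) < θ ^ e * 1 := mul_lt_mul_of_pos_left h3 hθe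
      linarith
    · have h3 : i + 1 = e := le_antisymm hi' h2
      rw [h3, hce, norm_one, one_mul] at hbd
      exact absurd hbd (not_le.2 (pow_lt_pow_left₀ hlt (norm_nonneg _) he.ne'))
  · exact heq
  · exfalso
    rw [Finset.sum_range_succ, hce, one_mul] at hsum
    have h1 : β ^ e = -∑ i ∈ Finset.range e, (Q.coeff i : Ω) * β ^ i :=
      eq_neg_of_add_eq_zero_right hsum.symm
    obtain ⟨i, hi, hbd⟩ := IsUltrametricDist.exists_norm_finsetSum_le_of_nonempty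
      (Finset.nonempty_range_iff.2 he.ne') (fun i => (Q.coeff i : Ω) * β ^ i)
    rw [← norm_neg, ← h1, norm_pow, norm_mul, norm_pow] at hbd
    have hi' : i < e := Finset.mem_range.1 hi
    have hβ0 : 0 < ‖β‖ := hB.θ0.trans hgt
    have h2 : ‖(Q.coeff i : Ω)‖ * ‖β‖ ^ i ≤ θ ^ e * ‖β‖ ^ i :=
      mul_le_mul_of_nonneg_right (hle _ hi') (pow_nonneg (norm_nonneg _) _)
    have h3 : θ ^ e ≤ θ ^ (e - i) := pow_le_pow_of_le_one hB.θ0.le hB.θ1.le (Nat.sub_le e i)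
    have h4 : θ ^ (e - i) < ‖β‖ ^ (e - i) :=
      pow_lt_pow_left₀ hgt hB.θ0.le (Nat.sub_ne_zero_of_lt hi')
    have h5 : ‖β‖ ^ e = ‖β‖ ^ (e - i) * ‖β‖ ^ i := by
      rw [← pow_add, Nat.sub_add_cancel hi'.le]
    have h6 : θ ^ e * ‖β‖ ^ i < ‖β‖ ^ (e - i) * ‖β‖ ^ i :=
      mul_lt_mul_of_pos_right (h3.trans_lt h4) (pow_pos hβ0 i)
    linarith

end Fermat.Agent.TW56.Ram

end
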