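/-
TEAM TW56 -> S56, block FLAT, sub-block [RAM], task RAM-FOURIER: `M^H = M^J(α)`, `H = Stab_J(α)`, in the
coordinate `y = α - ε` (`Stmt_Fourier`).

`z_i = (p N)⁻¹ ∑_{s ∈ J} s (c α^{-i})` is fixed by `J`, and `∑_{i<p} z_i α^i = c` because
`∑_{i<p} (α / sα)^i` is `p` if `sα = α` and `0` otherwise.
-/
import Fermat.Agent.TW56.Ram.Abs

set_option autoImplicit false

noncomputable section

namespace Fermat.Agent.TW56.Ram

open Polynomial

namespace Fourier

variable {Ω : Type} [NormedField Ω] {M : Subfield Ω} {I : Type} [Group I] [Fintype I]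
  {a : I → Ω →+* Ω}

open Classical in
/-- the elements of `J` as a finset. -/
def JF (J : Subgroup I) : Finset I := Finset.univ.filter fun s => s ∈ J

theorem mem_JF {J : Subgroup I} {s : I} : s ∈ JF J ↔ s ∈ J := by simp [JF]

/-- the trace from `M` to `M^J`. -/
def tr (a : I → Ω →+* Ω) (J : Subgroup I) (x : Ω) : Ω := ∑ s ∈ JF J, a s x

theorem tr_mem (h : GAct M I a) (J : Subgroup I) {x : Ω} (hx : x ∈ M) : tr a J x ∈ M :=
  M.sum_mem fun s _ => h.maps s x hx

theorem tr_fixed (h : GAct M I a) (J : Subgroup I) {x : Ω} (hx : x ∈ M) {t : I} (ht : t ∈ J) :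
    a t (tr a J x) = tr a J x := by
  unfold tr
  rw [map_sum]
  refine Finset.sum_equiv (Equiv.mulLeft t) (fun s => ?_) (fun s _ => ?_)
  · rw [mem_JF, mem_JF, Equiv.coe_mulLeft]
    exact (J.mul_mem_cancel_left ht).symm
  · rw [Equiv.coe_mulLeft, h.mul t s x hx]

theorem geom (p : ℕ) {χ : Ω} (h1 : χ ^ p = 1) (h2 : χ ≠ 1) : ∑ i ∈ Finset.range p, χ ^ i = 0 := by
  rw [geom_sum_eq h2, h1, sub_self, zero_div]

open Classical in
theorem card_stab (a : I → Ω →+* Ω) (J : Subgroup I) (α : Ω) :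
    ((JF J).filter fun s => a s α = α) = stabF a J α := by
  ext s
  rw [Finset.mem_filter, mem_JF, mem_stabF]

end Fourier

open _root_.Fermat.Agent.TW56.Ram.Fourier

theorem stmt_Fourier : Stmt_Fourier := by
  classical
  intro Ω _ _ M I _ _ a hA J p α ε hp hα hα0 hαp hε c hc hcfix
  set N : ℕ := (stabF a J α).card with hN
  have hN0 : N ≠ 0 := by
    rw [hN]
    exact Finset.card_ne_zero_of_mem (mem_stabF.2 ⟨J.one_mem, hA.one α hα⟩)
  have hpN : ((p : Ω) * (N : Ω)) ≠ 0 :=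
    mul_ne_zero (Nat.cast_ne_zero.2 hp.ne') (Nat.cast_ne_zero.2 hN0)
  have hxM : ∀ i : ℕ, c * α⁻¹ ^ i ∈ M := fun i => M.mul_mem hc (M.pow_mem (M.inv_mem hα) i)
  let z : ℕ → Ω := fun i => ((p : Ω) * (N : Ω))⁻¹ * tr a J (c * α⁻¹ ^ i)
  have hz : ∀ i, z i ∈ fixR M a J := by
    intro i
    refine mem_fixR.2 ⟨M.mul_mem (M.inv_mem (M.mul_mem (natCast_mem M p) (natCast_mem M N)))
      (tr_mem hA J (hxM i)), fun t ht => ?_⟩
    show a t (((p : Ω) * (N : Ω))⁻¹ * tr a J (c * α⁻¹ ^ i)) = _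
    rw [map_mul, tr_fixed hA J (hxM i) ht, map_inv₀, map_mul, map_natCast, map_natCast]
  -- the Fourier inversion formula
  have hsum : ∑ i ∈ Finset.range p, z i * α ^ i = c := by
    have h1 : ∀ s ∈ JF J, ∑ i ∈ Finset.range p, a s (c * α⁻¹ ^ i) * α ^ i =
        if a s α = α then (p : Ω) * c else 0 := by
      intro s hs
      rw [mem_JF] at hs
      have e1 : ∀ i, a s (c * α⁻¹ ^ i) * α ^ i = a s c * ((a s α)⁻¹ * α) ^ i := by
        intro i
        rw [map_mul, map_pow, map_inv₀, mul_pow, mul_assoc]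
      simp only [e1]
      rw [← Finset.mul_sum]
      split_ifs with hs1
      · rw [hs1, inv_mul_cancel₀ hα0, hcfix s hs hs1]
        simp [mul_comm]
      · have hsα0 : a s α ≠ 0 := by
          rw [Ne, map_eq_zero]
          exact hα0
        rw [geom p, mul_zero]
        · rw [mul_pow, inv_pow, ← map_pow, (mem_fixR.1 hαp).2 s hs,
            inv_mul_cancel₀ (pow_ne_zero p hα0)]
        · intro hcon
          apply hs1
          have := congrArg (fun x => a s α * x) hcon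
          simp only [mul_one, mul_inv_cancel_left₀ hsα0] at this
          exact this.symm
    have h2 : ∑ i ∈ Finset.range p, z i * α ^ i =
        ((p : Ω) * (N : Ω))⁻¹ * ∑ s ∈ JF J, ∑ i ∈ Finset.range p, a s (c * α⁻¹ ^ i) * α ^ i := by
      rw [Finset.sum_comm, Finset.mul_sum]
      refine Finset.sum_congr rfl fun i _ => ?_
      show ((p : Ω) * (N : Ω))⁻¹ * tr a J (c * α⁻¹ ^ i) * α ^ i = _
      rw [tr, mul_assoc, Finset.sum_mul]
    rw [h2, Finset.sum_congr rfl h1, ← Finset.sum_filter, card_stab, Finset.sum_const, ← hN,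
      nsmul_eq_mul]
    have e3 : ((p : Ω) * (N : Ω))⁻¹ * ((N : Ω) * ((p : Ω) * c)) =
        (((p : Ω) * (N : Ω))⁻¹ * ((p : Ω) * (N : Ω))) * c := by ring
    rw [e3, inv_mul_cancel₀ hpN, one_mul]
  -- the polynomial
  let g0 : (fixR M a J)[X] := ∑ i ∈ Finset.range p, C (⟨z i, hz i⟩ : fixR M a J) * X ^ i
  have hg0deg : g0.natDegree ≤ p - 1 := by
    refine natDegree_sum_le_of_forall_le _ _ fun i hi => ?_
    refine (natDegree_C_mul_X_pow_le _ _).trans ?_
    have := Finset.mem_range.1 hi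
    omega
  have hg0 : aeval α g0 = c := by
    rw [← hsum]
    simp only [g0, map_sum, map_mul, aeval_C, map_pow, aeval_X]
    rfl
  refine ⟨g0.comp (X + C (⟨ε, hε⟩ : fixR M a J)), ?_, ?_⟩
  · have h1 := natDegree_comp_le (p := g0) (q := X + C (⟨ε, hε⟩ : fixR M a J))
    have h2 : (X + C (⟨ε, hε⟩ : fixR M a J)).natDegree ≤ 1 :=
      (natDegree_add_le _ _).trans (max_le natDegree_X_le (by rw [natDegree_C]; exact zero_le_one))
    have h3 : g0.natDegree * (X + C (⟨ε, hε⟩ : fixR M a J)).natDegree ≤ (p - 1) * 1 :=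
      Nat.mul_le_mul hg0deg h2
    omega
  · rw [aeval_comp]
    have h1 : aeval (α - ε) (X + C (⟨ε, hε⟩ : fixR M a J)) = α := by
      rw [map_add, aeval_X, aeval_C]
      show α - ε + ε = α
      ring
    rw [h1, hg0]

end Fermat.Agent.TW56.Ram

end
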