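/-
TEAM TW56 -> S56, block FLAT, sub-block [RAM].  RAM-INDEX : `#(J ∖ H) ≥ (p-1) #H` (`Stmt_Index`).
-/
import Fermat.Agent.TW56.Ram.Abs

set_option autoImplicit false

noncomputable section

namespace Fermat.Agent.TW56.Ram

open Polynomial

namespace Index

theorem prim {Ω : Type} [Field Ω] {p : ℕ} (hp : p.Prime) {ζ : Ω} (h1 : ζ ^ p = 1) (h2 : ζ ≠ 1) :
    IsPrimitiveRoot ζ p := by
  have : Fact p.Prime := ⟨hp⟩
  have h := IsPrimitiveRoot.orderOf ζ
  rwa [orderOf_eq_prime h1 h2] at h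

end Index

theorem stmt_Index : Stmt_Index := by
  intro Ω _ M I _ _ a hG J p ζ α hp hζ hζp hζ1 hα hα0 hαp ⟨σ, hσ, hσα⟩
  classical
  have : NeZero p := ⟨hp.ne_zero⟩
  have hprimζ : IsPrimitiveRoot ζ p := Index.prim hp hζp hζ1
  set χ : Ω := a σ α / α with hχ
  have hχα : a σ α = χ * α := by rw [hχ, div_mul_cancel₀ _ hα0]
  have hχ1 : χ ≠ 1 := by
    intro h
    apply hσα
    rw [hχα, h, one_mul]
  have hχp : χ ^ p = 1 := by
    rw [hχ, div_pow, ← map_pow, hαp.2 σ hσ, div_self (pow_ne_zero p hα0)]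
  have hprim : IsPrimitiveRoot χ p := Index.prim hp hχp hχ1
  have hχfix : χ ∈ fixR M a J := by
    obtain ⟨i, -, hi⟩ := hprimζ.eq_pow_of_pow_eq_one hχp
    rw [← hi]
    exact pow_mem hζ i
  have hpow : ∀ k : ℕ, a (σ ^ k) α = χ ^ k * α := by
    intro k
    induction k with
    | zero => rw [pow_zero, pow_zero, one_mul, hG.one α hα]
    | succ k ih =>
      rw [pow_succ', hG.mul σ (σ ^ k) α hα, ih, map_mul, map_pow, hχfix.2 σ hσ, hχα, pow_succ]
      ring
  have hact : ∀ (k : ℕ), ∀ h ∈ stabF a J α, a (σ ^ k * h) α = χ ^ k * α := by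
    intro k h hh
    rw [hG.mul (σ ^ k) h α hα, (mem_stabF.1 hh).2, hpow]
  have hcard : ((Finset.Icc 1 (p - 1)) ×ˢ stabF a J α).card ≤ (moveF a J α).card := by
    refine Finset.card_le_card_of_injOn (fun x : ℕ × I => σ ^ x.1 * x.2) ?_ ?_
    · rintro ⟨k, h⟩ hx
      rw [Finset.mem_coe, Finset.mem_product, Finset.mem_Icc] at hx
      obtain ⟨⟨hk1, hk2⟩, hh⟩ := hx
      rw [Finset.mem_coe, mem_moveF]
      refine ⟨J.mul_mem (J.pow_mem hσ k) (mem_stabF.1 hh).1, ?_⟩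
      show a (σ ^ k * h) α ≠ α
      rw [hact k h hh]
      intro hc
      have hk : χ ^ k = 1 := by
        apply mul_right_cancel₀ hα0
        rw [hc, one_mul]
      have hp1 := hp.one_lt
      exact hprim.pow_ne_one_of_pos_of_lt (by omega) (by omega) hk
    · rintro ⟨k, h⟩ hx ⟨k', h'⟩ hx' hxx
      rw [Finset.mem_coe, Finset.mem_product, Finset.mem_Icc] at hx hx'
      obtain ⟨⟨hk1, hk2⟩, hh⟩ := hx
      obtain ⟨⟨hk1', hk2'⟩, hh'⟩ := hx'
      have hxx' : σ ^ k * h = σ ^ k' * h' := hxx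
      have e1 : χ ^ k * α = χ ^ k' * α := by
        rw [← hact k h hh, ← hact k' h' hh', hxx']
      have hp1 := hp.one_lt
      have hkk : k = k' := hprim.pow_inj (by omega) (by omega) (mul_right_cancel₀ hα0 e1)
      subst hkk
      rw [mul_left_cancel hxx']
  rw [Finset.card_product, Nat.card_Icc, Nat.add_sub_cancel] at hcard
  exact hcard

end Fermat.Agent.TW56.Ram

end
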