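/-
TEAM TW56 -> S56, block FLAT, sub-block [RAM].  RAM-MAX : ultrametric unique-max lemmas.
-/
import Fermat.Agent.TW56.Ram.Abs

set_option autoImplicit false

noncomputable section

namespace Fermat.Agent.TW56.Ram

open Polynomial

theorem stmt_Max : Stmt_Max := by
  classical
  intro Ω _ _ n f hf i
  by_cases hi : f i = 0
  · rw [hi, norm_zero]
    exact norm_nonneg _
  have hmem : i ∈ Finset.univ.filter (fun j => f j ≠ 0) := by simp [hi]
  have hne : (Finset.univ.filter (fun j => f j ≠ 0)).Nonempty := ⟨i, hmem⟩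
  have hpw : Set.Pairwise (↑(Finset.univ.filter (fun j => f j ≠ 0)) : Set (Fin n))
      (fun a b => ‖f a‖ ≠ ‖f b‖) := by
    intro a ha b _ hab
    have ha' : f a ≠ 0 := by simpa using ha
    exact hf a b hab ha'
  rw [← Finset.sum_filter_ne_zero, IsUltrametricDist.norm_sum_eq_sup'_of_pairwise_ne hne hpw]
  exact Finset.le_sup' (fun j => ‖f j‖) hmem

namespace Max

variable {Ω : Type} [NormedField Ω]

theorem aeval_eq (S : Subring Ω) (y : Ω) (n : ℕ) (g : S[X]) (hg : g.natDegree < n) :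
    aeval y g = ∑ i : Fin n, (g.coeff i : Ω) * y ^ (i : ℕ) := by
  rw [aeval_eq_sum_range' hg, Fin.sum_univ_eq_sum_range (fun i => (g.coeff i : Ω) * y ^ i) n]
  refine Finset.sum_congr rfl fun i _ => ?_
  rw [Algebra.smul_def]
  rfl

end Max

theorem stmt_PolyMax (h : Stmt_Max) : Stmt_PolyMax := by
  intro Ω _ _ S y n hDH g hg
  have hsum := Max.aeval_eq S y n g hg
  have hdist : ∀ i j : Fin n, i ≠ j → (g.coeff i : Ω) * y ^ (i : ℕ) ≠ 0 →
      ‖(g.coeff i : Ω) * y ^ (i : ℕ)‖ ≠ ‖(g.coeff j : Ω) * y ^ (j : ℕ)‖ := by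
    intro i j hij hi
    have hci : (g.coeff i : Ω) ≠ 0 := left_ne_zero_of_mul hi
    by_cases hcj : (g.coeff j : Ω) = 0
    · rw [hcj, zero_mul, norm_zero]
      exact norm_ne_zero_iff.2 hi
    rw [norm_mul, norm_mul, norm_pow, norm_pow]
    have hij' : (i : ℕ) ≠ (j : ℕ) := fun hh => hij (Fin.ext hh)
    rcases lt_or_gt_of_ne hij' with hlt | hlt
    · exact hDH _ (g.coeff i).2 _ (g.coeff j).2 hci hcj i j hlt j.2
    · exact (hDH _ (g.coeff j).2 _ (g.coeff i).2 hcj hci j i hlt i.2).symm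
  have hmax := h Ω n (fun i : Fin n => (g.coeff i : Ω) * y ^ (i : ℕ)) hdist
  have hle : ∀ i, ‖(g.coeff i : Ω)‖ * ‖y‖ ^ i ≤ ‖aeval y g‖ := by
    intro i
    by_cases hi : i < n
    · have := hmax ⟨i, hi⟩
      rw [← hsum] at this
      simpa [norm_mul, norm_pow] using this
    · rw [coeff_eq_zero_of_natDegree_lt (lt_of_lt_of_le hg (not_lt.1 hi))]
      simp
  refine ⟨hle, ?_⟩
  have hn : 0 < n := lt_of_le_of_lt (Nat.zero_le _) hg
  have : Nonempty (Fin n) := ⟨⟨0, hn⟩⟩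
  obtain ⟨i, -, hi⟩ := IsUltrametricDist.exists_norm_finsetSum_le Finset.univ
    (fun i : Fin n => (g.coeff i : Ω) * y ^ (i : ℕ))
  rw [← hsum, norm_mul, norm_pow] at hi
  exact ⟨i, i.2, le_antisymm hi (hle i)⟩

end Fermat.Agent.TW56.Ram

end
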