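/-
TEAM TW56 -> S56, block FLAT, sub-block [RAM], task RAM-MVU : `‖s x - x‖ ≤ ‖s Π - Π‖`.
-/
import Fermat.Agent.TW56.Ram.Abs

set_option autoImplicit false

noncomputable section

namespace Fermat.Agent.TW56.Ram

open Polynomial

namespace MoveUnif

variable {Ω : Type} [NormedField Ω] [IsUltrametricDist Ω]

theorem pow_sub_pow_le {u v : Ω} (hu : ‖u‖ ≤ 1) (hv : ‖v‖ ≤ 1) (i : ℕ) :
    ‖u ^ i - v ^ i‖ ≤ ‖u - v‖ := by
  induction i with
  | zero => simp
  | succ i ih =>
    have e : u ^ (i + 1) - v ^ (i + 1) = u ^ i * (u - v) + (u ^ i - v ^ i) * v := by ring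
    rw [e]
    refine (IsUltrametricDist.norm_add_le_max _ _).trans (max_le ?_ ?_)
    · rw [norm_mul, norm_pow]
      exact mul_le_of_le_one_left (norm_nonneg _) (pow_le_one₀ (norm_nonneg _) hu)
    · rw [norm_mul]
      exact (mul_le_of_le_one_right (norm_nonneg _) hv).trans ih

omit [IsUltrametricDist Ω] in
theorem aeval_eq (R0 : Subring Ω) (y : Ω) (f : R0[X]) :
    aeval y f = ∑ i ∈ Finset.range (f.natDegree + 1), (f.coeff i : Ω) * y ^ i := by
  rw [Polynomial.aeval_eq_sum_range]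
  rfl

theorem aeval_sub_le (R0 : Subring Ω) (hR : ∀ r ∈ R0, ‖r‖ ≤ 1) (f : R0[X]) {u v : Ω}
    (hu : ‖u‖ ≤ 1) (hv : ‖v‖ ≤ 1) : ‖aeval u f - aeval v f‖ ≤ ‖u - v‖ := by
  rw [aeval_eq, aeval_eq, ← Finset.sum_sub_distrib]
  refine IsUltrametricDist.norm_sum_le_of_forall_le_of_nonneg (norm_nonneg _) fun i _ => ?_
  rw [← mul_sub, norm_mul]
  exact (mul_le_of_le_one_left (norm_nonneg _) (hR _ (f.coeff i).2)).trans
    (pow_sub_pow_le hu hv i)

omit [IsUltrametricDist Ω] in
theorem map_aeval (R0 : Subring Ω) (φ : Ω →+* Ω) (hφ : ∀ r ∈ R0, φ r = r) (y : Ω) (f : R0[X]) :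
    φ (aeval y f) = aeval (φ y) f := by
  rw [aeval_eq, aeval_eq, map_sum]
  refine Finset.sum_congr rfl fun i _ => ?_
  rw [map_mul, map_pow, hφ _ (f.coeff i).2]

end MoveUnif

/-- RAM-MVU : `‖s x - x‖ ≤ ‖s Π - Π‖` on the integers of `M`. -/
theorem stmt_MoveUnif : Stmt_MoveUnif := by
  intro Ω _ _ M I _ a hG R0 Pi hR hfix hPi hApp s x hx hx1
  have key : ∀ c : ℝ, 0 < c → ‖a s x - x‖ ≤ max c ‖a s Pi - Pi‖ := by
    intro c hc
    obtain ⟨f, hf⟩ := hApp x hx hx1 c hc
    have e : a s x - x = a s (x - aeval Pi f) + ((aeval (a s Pi) f - aeval Pi f)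
        + (aeval Pi f - x)) := by
      rw [map_sub, MoveUnif.map_aeval R0 (a s) (fun r hr => hfix r hr s)]
      ring
    rw [e]
    refine (IsUltrametricDist.norm_add_le_max _ _).trans (max_le ?_ ?_)
    · rw [hG.isom]
      exact hf.trans (le_max_left _ _)
    · refine (IsUltrametricDist.norm_add_le_max _ _).trans (max_le ?_ ?_)
      · exact (MoveUnif.aeval_sub_le R0 hR f (by rw [hG.isom]; exact hPi) hPi).trans
          (le_max_right _ _)
      · rw [norm_sub_rev]
        exact hf.trans (le_max_left _ _)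
  rcases (norm_nonneg (a s Pi - Pi)).eq_or_lt with h0 | h0
  · rw [← h0]
    refine le_of_forall_pos_le_add fun c hc => ?_
    have := key c hc
    rw [← h0, max_eq_left hc.le] at this
    rw [zero_add]
    exact this
  · have := key _ h0
    rwa [max_self] at this

end Fermat.Agent.TW56.Ram

end
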