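/-
TEAM TW56 -> S56, block FLAT, sub-block [RAM]: RAM-COEF (`Stmt_CoefBd`) and RAM-P0 (`Stmt_P0`).
-/
import Fermat.Agent.TW56.Ram.Abs

set_option autoImplicit false

noncomputable section

namespace Fermat.Agent.TW56.Ram

open Polynomial

/-- RAM-COEF. -/
theorem stmt_CoefBd : Stmt_CoefBd := by
  intro Ω _ _ ι T r θ hθ
  classical
  induction T using Finset.induction_on with
  | empty =>
    intro _ i hi
    have hi0 : i = 0 := by simpa using hi
    subst hi0
    simp
  | insert t T ht ih =>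
    intro hr i hi
    have ih' := ih (fun u hu => hr u (Finset.mem_insert_of_mem hu))
    have hrt : ‖r t‖ ≤ θ := hr t (Finset.mem_insert_self t T)
    rw [Finset.prod_insert ht, Finset.card_insert_of_notMem ht] at *
    cases i with
    | zero =>
      rw [mul_coeff_zero, norm_mul, Nat.sub_zero, pow_succ']
      have h1 := ih' 0 (Nat.zero_le _)
      rw [Nat.sub_zero] at h1
      have h2 : ‖(X - C (r t)).coeff 0‖ ≤ θ := by simpa using hrt
      exact mul_le_mul h2 h1 (norm_nonneg _) hθ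
    | succ j =>
      have hj : j ≤ T.card := by omega
      rw [coeff_X_sub_C_mul, Nat.add_sub_add_right, sub_eq_add_neg]
      refine (IsUltrametricDist.norm_add_le_max _ _).trans (max_le (ih' j hj) ?_)
      rw [norm_neg]
      by_cases hj1 : j + 1 ≤ T.card
      · have h1 := ih' (j + 1) hj1
        have h2 : T.card - j = (T.card - (j + 1)) + 1 := by omega
        rw [norm_mul, h2, pow_succ']
        exact mul_le_mul hrt h1 (norm_nonneg _) hθ
      · have h1 : (∏ u ∈ T, (X - C (r u))).coeff (j + 1) = 0 := by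
          apply coeff_eq_zero_of_natDegree_lt
          rw [natDegree_finsetProd_X_sub_C_eq_card]
          omega
        rw [h1, mul_zero, norm_zero]
        exact pow_nonneg hθ _

namespace P0

variable {Ω : Type} [NormedField Ω]

/-- `∏_s (X - sΠ)`. -/
def F {I : Type} [Fintype I] (a : I → Ω →+* Ω) (Pi : Ω) : Polynomial Ω :=
  ∏ s : I, (X - C (a s Pi))

theorem F_monic {I : Type} [Fintype I] (a : I → Ω →+* Ω) (Pi : Ω) : (F a Pi).Monic :=
  monic_prod_of_monic _ _ (fun _ _ => monic_X_sub_C _)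

theorem F_natDegree {I : Type} [Fintype I] (a : I → Ω →+* Ω) (Pi : Ω) :
    (F a Pi).natDegree = Fintype.card I := by
  rw [F, natDegree_finsetProd_X_sub_C_eq_card, Finset.card_univ]

theorem F_coeff_mem {M : Subfield Ω} {I : Type} [Group I] [Fintype I] {a : I → Ω →+* Ω}
    (hA : GAct M I a) {Pi : Ω} (hPi : Pi ∈ M) (i : ℕ) : (F a Pi).coeff i ∈ M := by
  have h1 : F a Pi = (∏ s : I, (X - C (⟨a s Pi, hA.maps s Pi hPi⟩ : M))).map M.subtype := by
    rw [Polynomial.map_prod, F]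
    refine Finset.prod_congr rfl (fun s _ => ?_)
    simp
  rw [h1, coeff_map]
  exact Subtype.property _

theorem F_coeff_fixed {M : Subfield Ω} {I : Type} [Group I] [Fintype I] {a : I → Ω →+* Ω}
    (hA : GAct M I a) {Pi : Ω} (hPi : Pi ∈ M) (t : I) (i : ℕ) :
    a t ((F a Pi).coeff i) = (F a Pi).coeff i := by
  have h1 : (F a Pi).map (a t) = F a Pi := by
    rw [F, Polynomial.map_prod]
    refine Fintype.prod_equiv (Equiv.mulLeft t) _ _ (fun s => ?_)
    rw [Polynomial.map_sub, map_X, map_C, Equiv.coe_mulLeft, hA.mul t s Pi hPi]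
  conv_rhs => rw [← h1]
  rw [coeff_map]

theorem F_coeff_le [IsUltrametricDist Ω] (h : Stmt_CoefBd) {M : Subfield Ω} {I : Type} [Group I]
    [Fintype I] {a : I → Ω →+* Ω} (hA : GAct M I a) (Pi : Ω) (i : ℕ) (hi : i ≤ Fintype.card I) :
    ‖(F a Pi).coeff i‖ ≤ ‖Pi‖ ^ (Fintype.card I - i) := by
  have h1 := h Ω I Finset.univ (fun s => a s Pi) ‖Pi‖ (norm_nonneg _)
    (fun s _ => (hA.isom s Pi).le) i (by rw [Finset.card_univ]; exact hi)
  rw [Finset.card_univ] at h1
  exact h1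

theorem F_coeff_zero {M : Subfield Ω} {I : Type} [Group I]
    [Fintype I] {a : I → Ω →+* Ω} (hA : GAct M I a) (Pi : Ω) :
    ‖(F a Pi).coeff 0‖ = ‖Pi‖ ^ Fintype.card I := by
  rw [coeff_zero_eq_eval_zero, F, eval_prod, norm_prod]
  simp [hA.isom]

theorem F_eval {M : Subfield Ω} {I : Type} [Group I]
    [Fintype I] {a : I → Ω →+* Ω} (hA : GAct M I a) {Pi : Ω} (hPi : Pi ∈ M) :
    (F a Pi).eval Pi = 0 := by
  rw [F, eval_prod]
  apply Finset.prod_eq_zero (Finset.mem_univ (1 : I))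
  rw [hA.one Pi hPi]
  simp

end P0

/-- RAM-P0. -/
theorem stmt_P0 (h : Stmt_CoefBd) : Stmt_P0 := by
  intro Ω _ _ M I _ _ a hA R0 Pi θ hR0 hPi hθ hθ1
  have hθ0 : 0 ≤ θ := hθ ▸ norm_nonneg Pi
  have hle : ∀ i, ‖(P0.F a Pi).coeff i‖ ≤ 1 := by
    intro i
    by_cases hi : i ≤ Fintype.card I
    · refine (P0.F_coeff_le h hA Pi i hi).trans ?_
      rw [hθ]
      exact pow_le_one₀ hθ0 hθ1.le
    · rw [coeff_eq_zero_of_natDegree_lt (by rw [P0.F_natDegree]; omega), norm_zero]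
      exact zero_le_one
  have hmem : ∀ i, (P0.F a Pi).coeff i ∈ R0 := fun i =>
    hR0 _ (P0.F_coeff_mem hA hPi i) (fun s => P0.F_coeff_fixed hA hPi s i) (hle i)
  have hsub : ((P0.F a Pi).coeffs : Set Ω) ⊆ R0 := by
    intro x hx
    obtain ⟨n, -, rfl⟩ := mem_coeffs_iff.1 (Finset.mem_coe.1 hx)
    exact hmem n
  refine ⟨(P0.F a Pi).toSubring R0 hsub, ⟨?_, ?_, ?_, ?_⟩, ?_⟩
  · exact (monic_toSubring _ _ _).2 (P0.F_monic a Pi)
  · rw [natDegree_toSubring, P0.F_natDegree]
  · intro i hi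
    rw [coeff_toSubring]
    refine (P0.F_coeff_le h hA Pi i hi.le).trans_lt ?_
    rw [hθ]
    exact pow_lt_one₀ hθ0 hθ1 (by omega)
  · rw [coeff_toSubring, P0.F_coeff_zero hA, hθ]
  · have h1 : ((P0.F a Pi).toSubring R0 hsub).map (algebraMap R0 Ω) = P0.F a Pi :=
      map_toSubring _ _ _
    rw [aeval_def, eval₂_eq_eval_map, h1]
    exact P0.F_eval hA hPi

end Fermat.Agent.TW56.Ram

end
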