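/-
TEAM TW56 -> S56, block FLAT, sub-block [RAM], package RAM-REDUCE (helper93):
reduction modulo `p`-th powers.
-/
import Fermat.Agent.TW56.Ram.Abs

set_option autoImplicit false

namespace Fermat.Agent.TW56.Ram

namespace Reduce

variable {Ω : Type} [NormedField Ω] [IsUltrametricDist Ω]

/-- the descent. -/
theorem descent (h : Stmt_Improve) (K : Subfield Ω) (p : ℕ) (hp : p.Prime) (π : Ω)
    (hπ0 : π ≠ 0) (hπ1 : ‖π‖ < 1) (hval : ∀ x ∈ K, x ≠ 0 → ∃ n : ℤ, ‖x‖ = ‖π‖ ^ n)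
    (hU : ∀ u ∈ K, ‖u‖ = 1 → ∃ c ∈ K, ‖u - c ^ p‖ < 1)
    (l0 : ℝ) (hl0 : 0 < l0) (hl : ‖(p : Ω)‖ ^ p ≤ l0 ^ (p - 1)) (a : Ω) (ha : a ∈ K)
    (N : ℕ) (hN : ‖π‖ ^ N ≤ l0) :
    ∀ (j : ℕ) (b : Ω), b ∈ K → b ≠ 0 → ∀ m : ℤ, ‖a * b ^ p - 1‖ = ‖π‖ ^ m → 0 < m →
      (N : ℤ) ≤ m + j →
      (∃ b ∈ K, b ≠ 0 ∧ ‖a * b ^ p - 1‖ ≤ l0) ∨
      (∃ b ∈ K, b ≠ 0 ∧ l0 < ‖a * b ^ p - 1‖ ∧ ‖a * b ^ p - 1‖ < 1 ∧
        ∀ z ∈ K, z ≠ 0 → ‖z‖ ^ p ≠ ‖a * b ^ p - 1‖) := by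
  have hθ0 : 0 < ‖π‖ := norm_pos_iff.2 hπ0
  intro j
  induction j with
  | zero =>
    intro b hb hb0 m hm hm0 hNm
    left
    refine ⟨b, hb, hb0, ?_⟩
    rw [hm]
    refine le_trans ?_ hN
    rw [← zpow_natCast]
    exact zpow_le_zpow_right_of_le_one₀ hθ0 hπ1.le (by simpa using hNm)
  | succ j ih =>
    intro b hb hb0 m hm hm0 hNm
    have hlt1 : ‖a * b ^ p - 1‖ < 1 := by
      rw [hm]
      exact zpow_lt_one₀ hθ0 hπ1 hm0 
    by_cases hle : ‖a * b ^ p - 1‖ ≤ l0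
    · exact Or.inl ⟨b, hb, hb0, hle⟩
    rw [not_le] at hle
    by_cases hz : ∀ z ∈ K, z ≠ 0 → ‖z‖ ^ p ≠ ‖a * b ^ p - 1‖
    · exact Or.inr ⟨b, hb, hb0, hle, hlt1, hz⟩
    push Not at hz
    obtain ⟨z, hzK, hz0, hzp⟩ := hz
    have ha' : a * b ^ p ∈ K := K.mul_mem ha (K.pow_mem hb p)
    have hp1 : p - 1 ≠ 0 := by have := hp.two_le; omega
    obtain ⟨b', hb', hb'0, hlt⟩ := h Ω K p hp hU (a * b ^ p) ha' z hzK hlt1 hzp.symm
      (lt_of_le_of_lt hl (pow_lt_pow_left₀ hle hl0.le hp1))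
    have heq : a * b ^ p * b' ^ p = a * (b * b') ^ p := by rw [mul_pow, mul_assoc]
    rw [heq] at hlt
    have hbb : b * b' ∈ K := K.mul_mem hb hb'
    have hbb0 : b * b' ≠ 0 := mul_ne_zero hb0 hb'0
    by_cases h0 : a * (b * b') ^ p - 1 = 0
    · left
      refine ⟨b * b', hbb, hbb0, ?_⟩
      rw [h0, norm_zero]
      exact hl0.le
    obtain ⟨m', hm'⟩ := hval (a * (b * b') ^ p - 1)
      (K.sub_mem (K.mul_mem ha (K.pow_mem hbb p)) K.one_mem) h0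
    have hmm : m < m' := by
      rw [hm', hm] at hlt
      exact (zpow_lt_zpow_iff_right_of_lt_one₀ hθ0 hπ1).1 hlt
    exact ih (b * b') hbb hbb0 m' hm' (by omega) (by push_cast at hNm ⊢; omega)

end Reduce

open Reduce in
/-- **RAM-REDUCE.** -/
theorem stmt_Reduce (h : Stmt_Improve) : Stmt_Reduce := by
  intro Ω _ _ K p hp hπ hU l0 hl0 hl a ha ha0
  obtain ⟨π, hπK, hπ0, hπ1, hval⟩ := hπ
  have hθ0 : 0 < ‖π‖ := norm_pos_iff.2 hπ0
  obtain ⟨n, hn⟩ := hval a ha ha0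
  by_cases hdvd : (p : ℤ) ∣ n
  · -- unit case
    obtain ⟨n', rfl⟩ := hdvd
    have hb0K : π ^ (-n') ∈ K := K.zpow_mem hπK _
    have hb00 : π ^ (-n') ≠ 0 := zpow_ne_zero _ hπ0
    have hu : ‖a * (π ^ (-n')) ^ p‖ = 1 := by
      rw [norm_mul, norm_pow, norm_zpow, hn, ← zpow_natCast, ← zpow_mul, ← zpow_add₀ hθ0.ne']
      have : (p : ℤ) * n' + -n' * (p : ℤ) = 0 := by ring
      rw [this, zpow_zero]
    obtain ⟨c, hcK, hc⟩ := hU _ (K.mul_mem ha (K.pow_mem hb0K p)) hu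
    have hcp : 1 ≤ ‖c‖ ^ p := by
      by_contra hcon
      rw [not_le] at hcon
      have h1 : ‖a * (π ^ (-n')) ^ p‖ < 1 := by
        have h2 : a * (π ^ (-n')) ^ p = (a * (π ^ (-n')) ^ p - c ^ p) + c ^ p := by ring
        rw [h2]
        refine lt_of_le_of_lt (IsUltrametricDist.norm_add_le_max _ _) (max_lt hc ?_)
        rw [norm_pow]
        exact hcon
      rw [hu] at h1
      exact lt_irrefl _ h1
    have hc0 : c ≠ 0 := by
      rintro rfl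
      rw [norm_zero, zero_pow hp.ne_zero] at hcp
      linarith
    have hb1K : π ^ (-n') / c ∈ K := K.div_mem hb0K hcK
    have hb10 : π ^ (-n') / c ≠ 0 := div_ne_zero hb00 hc0
    have hlt1 : ‖a * (π ^ (-n') / c) ^ p - 1‖ < 1 := by
      have h2 : a * (π ^ (-n') / c) ^ p - 1 = (a * (π ^ (-n')) ^ p - c ^ p) / c ^ p := by
        have hcp0 : c ^ p ≠ 0 := pow_ne_zero _ hc0
        rw [div_pow, sub_div, div_self hcp0, mul_div_assoc]
      rw [h2, norm_div, norm_pow, div_lt_one (by linarith)]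
      linarith
    obtain ⟨N, hN⟩ := exists_pow_lt_of_lt_one hl0 hπ1
    by_cases h0 : a * (π ^ (-n') / c) ^ p - 1 = 0
    · left
      refine ⟨_, hb1K, hb10, ?_⟩
      rw [h0, norm_zero]
      exact hl0.le
    obtain ⟨m, hm⟩ := hval _ (K.sub_mem (K.mul_mem ha (K.pow_mem hb1K p)) K.one_mem) h0
    have hm0 : 0 < m := by
      rw [hm, ← zpow_zero ‖π‖] at hlt1
      exact (zpow_lt_zpow_iff_right_of_lt_one₀ hθ0 hπ1).1 hlt1
    rcases descent h K p hp π hπ0 hπ1 hval hU l0 hl0 hl a ha N hN.le N _ hb1K hb10 m hm hm0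
      (by omega) with h1 | h3
    · exact Or.inl h1
    · exact Or.inr (Or.inr h3)
  · -- valuation prime to `p`
    right; left
    have hp1 : (1 : ℤ) ≤ p := by exact_mod_cast hp.one_lt.le
    have hpos : 0 < n + (|n| + 1) * (p : ℤ) := by
      have h1 : -|n| ≤ n := neg_abs_le n
      have h2 : 0 ≤ |n| := abs_nonneg n
      nlinarith
    have hnorm : ‖a * (π ^ (|n| + 1)) ^ p‖ = ‖π‖ ^ (n + (|n| + 1) * (p : ℤ)) := by
      rw [norm_mul, norm_pow, norm_zpow, hn, ← zpow_natCast, ← zpow_mul, ← zpow_add₀ hθ0.ne']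
    refine ⟨π ^ (|n| + 1), K.zpow_mem hπK _, zpow_ne_zero _ hπ0, ?_, ?_⟩
    · rw [hnorm]
      exact zpow_lt_one₀ hθ0 hπ1 hpos
    · intro z hz hz0 heq
      obtain ⟨m, hm⟩ := hval z hz hz0
      rw [hnorm, hm, ← zpow_natCast, ← zpow_mul] at heq
      have := zpow_right_injective₀ hθ0 hπ1.ne heq
      apply hdvd
      refine ⟨m - (|n| + 1), ?_⟩
      linarith

end Fermat.Agent.TW56.Ram
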