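/-
TEAM TW56 -> S56, block FLAT, sub-block [RAM], task RAM-TWEVAL : evaluation at a twin.
-/
import Fermat.Agent.TW56.Ram.Abs

set_option autoImplicit false

noncomputable section

namespace Fermat.Agent.TW56.Ram

open Polynomial

namespace TwinEval

theorem norm_aeval_le_one {Ω : Type} [NormedField Ω] [IsUltrametricDist Ω] (R0 : Subring Ω)
    (hint : ∀ r ∈ R0, ‖r‖ ≤ 1) {β : Ω} (hβ : ‖β‖ ≤ 1) (q : R0[X]) : ‖aeval β q‖ ≤ 1 := by
  rw [aeval_eq_sum_range]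
  apply IsUltrametricDist.norm_sum_le_of_forall_le_of_nonneg zero_le_one
  intro i _
  rw [Subring.smul_def, smul_eq_mul, norm_mul, norm_pow]
  exact mul_le_one₀ (hint _ (q.coeff i).2) (pow_nonneg (norm_nonneg _) _)
    (pow_le_one₀ (norm_nonneg _) hβ)

end TwinEval

theorem stmt_TwinEval (h1 : Stmt_PolyMax) (h2 : Stmt_BaseDH) : Stmt_TwinEval := by
  intro Ω _ _ R0 θ e Pi β P0 hB hPi hβ hmon hdeg hroot g
  have hne1 : P0 ≠ 1 := by
    intro h
    rw [h, natDegree_one] at hdeg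
    exact hB.he.ne hdeg
  have hr : (g %ₘ P0).natDegree < e := by
    rw [← hdeg]; exact natDegree_modByMonic_lt g hmon hne1
  have hg : g %ₘ P0 + P0 * (g /ₘ P0) = g := modByMonic_add_div g P0
  have ePi : aeval Pi g = aeval Pi (g %ₘ P0) := by
    conv_lhs => rw [← hg]
    rw [map_add, map_mul, hroot, zero_mul, add_zero]
  have eβ : aeval β g = aeval β (g %ₘ P0) + aeval β P0 * aeval β (g /ₘ P0) := by
    conv_lhs => rw [← hg]
    rw [map_add, map_mul]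
  have m1 := (h1 Ω R0 Pi e (h2 Ω R0 θ e Pi hB hPi) (g %ₘ P0) hr).1
  obtain ⟨i, -, hi⟩ := (h1 Ω R0 β e (h2 Ω R0 θ e β hB hβ) (g %ₘ P0) hr).2
  have hle : ‖aeval β (g %ₘ P0)‖ ≤ ‖aeval Pi g‖ := by
    rw [hi, hβ, ← hPi, ePi]
    exact m1 i
  have hq : ‖aeval β (g /ₘ P0)‖ ≤ 1 :=
    TwinEval.norm_aeval_le_one R0 hB.int (by rw [hβ]; exact hB.θ1.le) _
  rw [eβ]
  refine (IsUltrametricDist.norm_add_le_max _ _).trans (max_le_max hle ?_)
  rw [norm_mul]
  exact mul_le_of_le_one_right (norm_nonneg _) hq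

end Fermat.Agent.TW56.Ram

end
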