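/-
TEAM TW56 -> S56, block FLAT, sub-block [RAM].  RAM-U : assembly of Theorem U (helper9).
-/
import Fermat.Agent.TW56.Ram.Abs

set_option autoImplicit false

noncomputable section

namespace Fermat.Agent.TW56.Ram

open Polynomial

namespace U

variable {Ω : Type} [NormedField Ω]

/-- `σ ∈ J` commutes with the evaluation of polynomials over `M^J`. -/
lemma map_aeval {M : Subfield Ω} {I : Type} [Group I] {a : I → Ω →+* Ω} {J : Subgroup I} {σ : I}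
    (hσ : σ ∈ J) (g : (fixR M a J)[X]) (x : Ω) : a σ (aeval x g) = aeval (a σ x) g := by
  have h : (a σ).comp (algebraMap (fixR M a J) Ω) = algebraMap (fixR M a J) Ω :=
    RingHom.ext fun r => r.2.2 σ hσ
  rw [aeval_def, hom_eval₂, h, ← aeval_def]

/-- `ζ` is a primitive `p`-th root of unity. -/
lemma prim {p : ℕ} (hp : p.Prime) {ζ : Ω} (h1 : ζ ^ p = 1) (h2 : ζ ≠ 1) : IsPrimitiveRoot ζ p := by
  have : Fact p.Prime := ⟨hp⟩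
  have h := orderOf_eq_prime h1 h2
  have h3 := IsPrimitiveRoot.orderOf ζ
  rwa [h] at h3

/-- `‖σ α - α‖ ≤ ‖ζ - 1‖ ‖α‖`. -/
lemma norm_move [IsUltrametricDist Ω] (h2 : Stmt_Zeta) {M : Subfield Ω} {I : Type} [Group I]
    {a : I → Ω →+* Ω} {J : Subgroup I} {σ : I} (hσ : σ ∈ J) {p : ℕ} (hp : p.Prime) {ζ α : Ω}
    (hζp : ζ ^ p = 1) (hζ1 : ζ ≠ 1) (hα0 : α ≠ 0) (hαp : α ^ p ∈ fixR M a J) :
    ‖a σ α - α‖ ≤ ‖ζ - 1‖ * ‖α‖ := by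
  have : NeZero p := ⟨hp.ne_zero⟩
  have hχ : (a σ α / α) ^ p = 1 := by
    rw [div_pow, ← map_pow, hαp.2 σ hσ, div_self (pow_ne_zero _ hα0)]
  obtain ⟨k, -, hk⟩ := (prim hp hζp hζ1).eq_pow_of_pow_eq_one hχ
  have hw : a σ α - α = (ζ ^ k - 1) * α := by
    rw [hk, sub_mul, one_mul, div_mul_cancel₀ _ hα0]
  rw [hw, norm_mul]
  exact mul_le_mul_of_nonneg_right ((h2 Ω p ζ hp hζp hζ1).2 k) (norm_nonneg _)

end U

open U in
theorem stmt_U (h1 : Stmt_PolyMax) (h2 : Stmt_Zeta) (h3 : Stmt_Fourier) (h4 : Stmt_Move)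
    (h5 : Stmt_Coset) (h6 : Stmt_Index) (h7 : Stmt_Count) : Stmt_U := by
  intro Ω _ _ _ M I _ _ _ a hG J p Pi ζ α ε θ hp hPiM hPiθ hθ0 hθ1 hζJ hζp hζ1 hαM hα0 hαp hε hy0
    hDH hmove hκ
  have hκ0 : 0 ≤ ‖ζ - 1‖ * ‖α‖ / ‖α - ε‖ :=
    div_nonneg (mul_nonneg (norm_nonneg _) (norm_nonneg _)) (norm_nonneg _)
  have hκ1 : ‖ζ - 1‖ * ‖α‖ / ‖α - ε‖ ≤ 1 := div_le_one_of_le₀ hκ (norm_nonneg _)
  have hone : (1 : I) ∈ stabF a J α := mem_stabF.2 ⟨J.one_mem, hG.one α hαM⟩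
  have hmul : ∀ h ∈ stabF a J α, ∀ h' ∈ stabF a J α, h * h' ∈ stabF a J α := by
    intro h hh h' hh'
    obtain ⟨e1, e2⟩ := mem_stabF.1 hh
    obtain ⟨e1', e2'⟩ := mem_stabF.1 hh'
    exact mem_stabF.2 ⟨J.mul_mem e1 e1', by rw [hG.mul h h' α hαM, e2', e2]⟩
  have hinv : ∀ h ∈ stabF a J α, h⁻¹ ∈ stabF a J α := by
    intro h hh
    obtain ⟨e1, e2⟩ := mem_stabF.1 hh
    refine mem_stabF.2 ⟨J.inv_mem e1, ?_⟩
    have e3 := hG.mul h⁻¹ h α hαM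
    rw [inv_mul_cancel, hG.one α hαM, e2] at e3
    exact e3.symm
  -- KEY
  have key : ∀ σ ∈ J, ∀ c ∈ M, (∀ h ∈ stabF a J α, a h c = c) →
      ‖a σ c - c‖ ≤ ‖ζ - 1‖ * ‖α‖ / ‖α - ε‖ * ‖c‖ := by
    intro σ hσ c hcM hc
    obtain ⟨g, hdeg, hg⟩ := h3 Ω M I a hG J p α ε hp.pos hαM hα0 hαp hε c hcM
      (fun s hs hsα => hc s (mem_stabF.2 ⟨hs, hsα⟩))
    have hPM := (h1 Ω (fixR M a J) (α - ε) p hDH g hdeg).1
    have hw : ‖a σ α - α‖ ≤ ‖ζ - 1‖ * ‖α‖ := norm_move h2 hσ hp hζp hζ1 hα0 hαp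
    have hmv := h4 Ω (fixR M a J) (α - ε) (a σ α - α) g hy0 (hw.trans hκ) hPM
    have e1 : a σ c = aeval (α - ε + (a σ α - α)) g := by
      have e0 : α - ε + (a σ α - α) = a σ α - ε := by ring
      rw [← hg, map_aeval hσ, map_sub, hε.2 σ hσ, e0]
    rw [← e1, hg] at hmv
    refine hmv.trans (mul_le_mul_of_nonneg_right ?_ (norm_nonneg c))
    exact div_le_div_of_nonneg_right hw (norm_nonneg _)
  refine h7 I (stabF a J α) (moveF a J α) (fun s => ‖Pi - a s Pi‖) θ _ (p - 1) hθ0 hθ1.le hκ0 hκ1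
    (fun s => norm_nonneg _) (fun s _ => ?_) hone ?_ ?_ hinv hmul ?_ ?_
  · show ‖Pi - a s Pi‖ ≤ θ
    rw [sub_eq_add_neg]
    refine (IsUltrametricDist.norm_add_le_max _ _).trans ?_
    rw [norm_neg, hG.isom, hPiθ, max_self]
  · intro h
    exact (mem_moveF.1 h).2 (hG.one α hαM)
  · intro σ hσ h hh
    obtain ⟨e1, e2⟩ := mem_moveF.1 hσ
    obtain ⟨e1', e2'⟩ := mem_stabF.1 hh
    exact mem_moveF.2 ⟨J.mul_mem e1 e1', by rw [hG.mul σ h α hαM, e2']; exact e2⟩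
  · intro σ hσ
    exact h5 Ω M I a hG (stabF a J α) σ Pi θ _ hone hmul hinv hPiM hPiθ hκ0
      (key σ (mem_moveF.1 hσ).1)
  · exact h6 Ω M I a hG J p ζ α hp hζJ hζp hζ1 hαM hα0 hαp hmove

end Fermat.Agent.TW56.Ram

end
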